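import Mathlib
import Fermat.Agent.LT.T7.H893.SupplyConstrSpec

/-!
# Row LT, tower T7, node T7.L2.1.H2a `BaseC` (sub-architect helper981, registry 2597):
# FIRST CUT -- Spec

OFF-MAIN.  Definitions and frozen Props only (the proved top is `BaseTop.lean`).  No hole,
nothing assumed.  ADDITIVE (new names only, suffix `981`).  Vocabulary: the five cuts of
helper893 (`T7/H893/Supply*Spec.lean`, `SupplyConstrSpec` sha256 feb0f697), `T7/H305/MatchSpec`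
(helper305), byte-identical copies.

    baseC_of981 : HaarCplxC981 → LvlC981 K K' → SysC981 K K' → Pair1C981 P K K'
                    → Pair2C981 P K K' → H893.BaseC P K K'                       (VERBATIM)

## The cut

The pre-data `E : L2Pre K K'` consist of FOUR independent parts, and every field of
`IsL2PreOp`, `IsL2PreSupp`, `IsDecomp893` is about ONE of them:

* the LEVEL `𝔫` with its exponents `(T₀, n, n₀, m)` (`IsLvl981`, `IsExp981`): leaf `LvlC981`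
  (`𝔫 = 𝔫₀ ^ d`; the exponents at the places of the level are as large as we like);
* the COSET SYSTEMS `Hg, H', z', H, z` (`IsSys981`): leaf `SysC981` (closed assets: helper593
  `exists_isDblCosetSystem593`, helper340 / helper701 Iwahori systems);
* the FIRST PAIR `(c₁, Φ₁, F₁)` (`IsPair1_981` + the local shape `LocA893`, constant `1`):
  NODE `Pair1C981`, for EVERY level with `IsLvl981` (no bad element);
* the SECOND PAIR `(c₂, φ₂, f₂)` (`IsPair2_981` + the local shape `LocB893`, constant `a`):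
  NODE `Pair2C981`, for the bad element `g`, for every level whose exponents at the places of
  the level are at least a bound `M` depending on `g` (the partners of `1_{U₀ g_w U₀}` at the
  bad places are bi-invariant under `U(M)`; `T6.BadMatchC` at the base level and the change of
  level of the orbit sums);
* a Haar measure of `GL₂(ℂ)`: leaf `HaarCplxC981` (MATHLIB ONLY); the two pairs are asked for
  EVERY Haar measure `μc` (the archimedean components downstairs are the `μc`-convolution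
  products of the components upstairs).

The exponents `(T₀, n, n₀, m)` are determined by the level; the two nodes are asked for ALL
exponents of the level, so that the top can use the same ones in both shapes.
-/

set_option autoImplicit false

open AutomorphicForm IsDedekindDomain NumberField MeasureTheory
open scoped ComplexConjugate

noncomputable section

namespace Fermat.Agent.LT.T7.B981

open Fermat.Agent.LT.H556 Fermat.Agent.LT.H556.A0 Fermat.Agent.LT.T7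
open Fermat.Agent.LT.T7.H305 Fermat.Agent.LT.T7.H893

attribute [local instance] Fermat.Agent.LT.T5.instMeasurableSpaceG

/-! ## 1. The four parts of the pre-data -/

section Parts

variable {K K' : Type} [Field K] [NumberField K] [Field K'] [NumberField K'] [Algebra K K']

/-- **THE LEVEL**: the four level fields of `IsL2PreOp`. -/
structure IsLvl981 (B : L2Base K K') (𝔫 : Ideal (𝓞 K)) : Prop where
  level_ne : 𝔫 ≠ ⊥
  level_g : upI (K' := K') 𝔫 ≤ B.𝔑₀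
  mem_S'_g : ∀ w : HeightOneSpectrum (𝓞 K'), w ∈ B.S' ↔ w.asIdeal ∣ upI (K' := K') 𝔫
  u_level : B.u.asIdeal ∣ 𝔫

/-- **THE EXPONENTS OF THE LEVEL**: the first four clauses of `IsDecomp893`. -/
structure IsExp981 (B : L2Base K K') (𝔫 : Ideal (𝓞 K))
    (T₀ : Finset (HeightOneSpectrum (𝓞 K)))
    (n n₀ : HeightOneSpectrum (𝓞 K') → ℕ) (m : HeightOneSpectrum (𝓞 K) → ℕ) : Prop where
  mem : ∀ v : HeightOneSpectrum (𝓞 K), v ∈ T₀ ↔ v.asIdeal ∣ 𝔫
  lvl : IsLevelOf893 𝔫 m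
  lvl_up : IsLevelOf893 (upI (K' := K') 𝔫) n
  lvl_base : IsLevelOf893 B.𝔑₀ n₀

/-- **THE COSET SYSTEMS**: the five coset fields of `IsL2PreOp`. -/
structure IsSys981 (B : L2Base K K') (g : G K') (Hg H' : Finset (G K')) (z' : G K')
    (H : Finset (G K)) (z : G K) : Prop where
  sysg : IsDblCosetSystem B.𝔑₀ g Hg
  sys' : IsIwCosetSystem (B.o 0) H'
  unif' : IsScalarUniformizerAt (B.o 0) z'
  sys : IsIwCosetSystem B.u H
  unif : IsScalarUniformizerAt B.u z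

/-- **THE FIRST PAIR** `(c₁, Φ₁, F₁)`: the fields `up1_*`, `dn1_*` of `IsL2PreOp` and
`IsL2PreSupp` and the first half of `up_ne` (same statements). -/
structure IsPair1_981 (ℓ : ℕ) (Φ : HeckeEigensystem K' ℂ) (B : L2Base K K')
    (𝔫 : Ideal (𝓞 K)) (c₁ : EigData K' → ℂ) (Φ₁ : List (Gen K') → G K' → ℂ)
    (F₁ : List (Gen K') → G K → ℂ) : Prop where
  up1_test : ∀ X : List (Gen K'), (∀ x ∈ X, x.Out B.S') →
    T5.IsTestFn (upI (K' := K') 𝔫) T5.trivType (Φ₁ X)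
  up1_ek : ∀ X : List (Gen K'), (∀ x ∈ X, x.Out B.S') →
    T5.IsEK B.R'.μ (Φ₁ X) ∧ T5.IsEK B.R'.μ (T5.adjointFn (Φ₁ X))
  up1_op : ∀ X : List (Gen K'), (∀ x ∈ X, x.Out B.S') →
    ∀ (χ : G K' → ℂ) (C : EigData K'), IsEigFn B.𝔑₀ B.R'.r ℓ B.o χ C →
      ∀ x : G K', T5.Rconv B.R'.μ (Φ₁ X) χ x = wordEv X C * c₁ C * χ x
  up1_ne : ∀ C : EigData K', C.AgreeOut B.S' (eigOf Φ) → c₁ C ≠ 0
  dn1_test : ∀ X : List (Gen K'), (∀ x ∈ X, x.Out B.S') →
    T5.IsTestFn 𝔫 T5.trivType (F₁ X)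
  dn1_ek : ∀ X : List (Gen K'), (∀ x ∈ X, x.Out B.S') →
    T5.IsEK B.R.μ (F₁ X) ∧ T5.IsEK B.R.μ (T5.adjointFn (F₁ X))
  dn1_op : ∀ X : List (Gen K'), (∀ x ∈ X, x.Out B.S') →
    ∀ (χ : G K → ℂ) (c : EigData K) (C : EigData K'),
      IsEigFn 𝔫 B.R.r 1 (fun _ => B.u) χ c → IsBCData c C B.S' →
      ∀ x : G K, T5.Rconv B.R.μ (F₁ X) χ x = wordEv X C * T5.Rconv B.R.μ (F₁ []) χ x
  dn1_wfn : ∀ ψ : G K → ℂ, IsWFn 𝔫 B.R.r 1 (fun _ => B.u) ψ →
    IsWFn 𝔫 B.R.r 1 (fun _ => B.u) (T5.Rconv B.R.μ (F₁ []) ψ)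
  dn1_class : ∀ (ψ : G K → ℂ) (c : EigData K), IsEigFn 𝔫 B.R.r 1 (fun _ => B.u) ψ c →
    IsEigFn 𝔫 B.R.r 1 (fun _ => B.u) (T5.Rconv B.R.μ (F₁ []) ψ) c
  dn1_comm : ∀ ψ : G K → ℂ, IsWFn 𝔫 B.R.r 1 (fun _ => B.u) ψ →
    ∀ (H : Finset (G K)) (z : G K), IsIwCosetSystem B.u H → IsScalarUniformizerAt B.u z →
      (∀ x : G K, T5.Rconv B.R.μ (F₁ []) (iwOp B.u H ψ) x
        = iwOp B.u H (T5.Rconv B.R.μ (F₁ []) ψ) x) ∧
      ∀ (k : ℤ) (x : G K), T5.Rconv B.R.μ (F₁ []) (shiftOp z k ψ) x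
        = shiftOp z k (T5.Rconv B.R.μ (F₁ []) ψ) x
  up1_supp : ∀ X : List (Gen K'), (∀ x ∈ X, x.Out B.S') →
    ∃ C : Set (G K'), IsCompact C ∧ T5.H32.IsIwSupported32 ℓ B.o C (Φ₁ X)
  dn1_supp : ∀ X : List (Gen K'), (∀ x ∈ X, x.Out B.S') →
    ∃ C : Set (G K), IsCompact C ∧ T5.H32.IsIwSupported32 1 (fun _ => B.u) C (F₁ X)

/-- **THE SECOND PAIR** `(c₂, φ₂, f₂)`: the fields `up2_*`, `dn2_*` of `IsL2PreOp` and
`IsL2PreSupp` and the second half of `up_ne` (same statements). -/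
structure IsPair2_981 (ℓ : ℕ) (Φ : HeckeEigensystem K' ℂ) (B : L2Base K K')
    (𝔫 : Ideal (𝓞 K)) (c₂ : EigData K' → ℂ) (φ₂ : G K' → ℂ) (f₂ : G K → ℂ) : Prop where
  up2_test : T5.IsTestFn (upI (K' := K') 𝔫) T5.trivType φ₂
  up2_ek : T5.IsEK B.R'.μ φ₂ ∧ T5.IsEK B.R'.μ (T5.adjointFn φ₂)
  up2_inv : IsUInv B.𝔑₀ ℓ B.o φ₂
  up2_op : ∀ (ψ : G K' → ℂ) (C : EigData K'), IsEigFn B.𝔑₀ B.R'.r ℓ B.o ψ C →
    ∀ x : G K', T5.Rconv B.R'.μ φ₂ ψ x = c₂ C * ψ x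
  up2_kill : ∀ ψ : G K' → ℂ, T5.IsCuspFn (upI (K' := K') 𝔫) T5.trivType B.R'.r ψ →
    (∀ χ : G K' → ℂ, IsWFn B.𝔑₀ B.R'.r ℓ B.o χ → T5.innerD B.R'.μ B.R'.F ψ χ = 0) →
    ∀ x : G K', T5.Rconv B.R'.μ φ₂ ψ x = 0
  up2_ne : ∀ C : EigData K', C.AgreeOut B.S' (eigOf Φ) → c₂ C ≠ 0
  dn2_test : T5.IsTestFn 𝔫 T5.trivType f₂
  dn2_ek : T5.IsEK B.R.μ f₂ ∧ T5.IsEK B.R.μ (T5.adjointFn f₂)
  dn2_inv : IsUInv 𝔫 1 (fun _ => B.u) f₂
  dn2_wfn : ∀ ψ : G K → ℂ, IsWFn 𝔫 B.R.r 1 (fun _ => B.u) ψ →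
    IsWFn 𝔫 B.R.r 1 (fun _ => B.u) (T5.Rconv B.R.μ f₂ ψ)
  dn2_class : ∀ (ψ : G K → ℂ) (c : EigData K), IsEigFn 𝔫 B.R.r 1 (fun _ => B.u) ψ c →
    IsEigFn 𝔫 B.R.r 1 (fun _ => B.u) (T5.Rconv B.R.μ f₂ ψ) c
  dn2_comm : ∀ ψ : G K → ℂ, IsWFn 𝔫 B.R.r 1 (fun _ => B.u) ψ →
    ∀ (H : Finset (G K)) (z : G K), IsIwCosetSystem B.u H → IsScalarUniformizerAt B.u z →
      (∀ x : G K, T5.Rconv B.R.μ f₂ (iwOp B.u H ψ) x
        = iwOp B.u H (T5.Rconv B.R.μ f₂ ψ) x) ∧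
      ∀ (k : ℤ) (x : G K), T5.Rconv B.R.μ f₂ (shiftOp z k ψ) x
        = shiftOp z k (T5.Rconv B.R.μ f₂ ψ) x
  dn2_kill : ∀ ψ : G K → ℂ, T5.IsCuspFn 𝔫 T5.trivType B.R.r ψ →
    (∀ χ : G K → ℂ, IsWFn 𝔫 B.R.r 1 (fun _ => B.u) χ → T5.innerD B.R.μ B.R.F ψ χ = 0) →
    ∀ x : G K, T5.Rconv B.R.μ f₂ ψ x = 0
  up2_supp : ∃ C : Set (G K'), IsCompact C ∧ T5.H32.IsIwSupported32 ℓ B.o C φ₂
  dn2_supp : ∃ C : Set (G K), IsCompact C ∧ T5.H32.IsIwSupported32 1 (fun _ => B.u) C f₂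

end Parts

/-! ## 2. The leaves and the nodes -/

/-- **LEAF T7.L2.1.H2a.0 = HAAR (MATHLIB ONLY).**  `GL₂(ℂ)` (the units of the matrix ring, a
locally compact second countable group) has a Haar measure on its Borel `σ`-algebra. -/
def HaarCplxC981 : Prop :=
  ∃ μc : @Measure (GL (Fin 2) ℂ) (borel _), @Measure.IsHaarMeasure _ _ _ (borel _) μc

section Nodes

variable (P : EKCond)
variable (K K' : Type) [Field K] [NumberField K] [Field K'] [NumberField K'] [Algebra K K']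

/-- **LEAF T7.L2.1.H2a.1 = LEVEL.**  For a common part and every bound `M` there are a level
with the four level properties and exponents `(T₀, n, n₀, m)` of it with `M ≤ m v` at the
places `v ∈ T₀`.
Proof.  `𝔫₀` of `IsL2Base.base_level` (`𝔑₀ = 𝔫₀ 𝒪_{K'}`, `u ∣ 𝔫₀`), `𝔫 = 𝔫₀ ^ d`, `d = max M 1`:
`𝔫 ≠ ⊥`, `𝔫 𝒪_{K'} = 𝔑₀ ^ d ≤ 𝔑₀`, a prime divides `𝔑₀ ^ d` iff it divides `𝔑₀` (`mem_S'`),
`u ∣ 𝔫`.  Exponents: `m v` = the multiplicity of `v` in `𝔫` (`≥ d` at the prime divisors), the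
closure of an ideal in `K_v` is the ball of radius `exp (- m v)` (kit: `idealClosure`, helper981
`T7/H981/FinIndex.lean`, helper305 `GenLvl`); `T₀` = the prime divisors of `𝔫`. -/
def LvlC981 : Prop :=
  ∀ (ℓ : ℕ) (Φ : HeckeEigensystem K' ℂ) (B : L2Base K K'), IsL2Base ℓ Φ B → ∀ M : ℕ,
    ∃ (𝔫 : Ideal (𝓞 K)) (T₀ : Finset (HeightOneSpectrum (𝓞 K)))
      (n n₀ : HeightOneSpectrum (𝓞 K') → ℕ) (m : HeightOneSpectrum (𝓞 K) → ℕ),
      IsLvl981 B 𝔫 ∧ IsExp981 B 𝔫 T₀ n n₀ m ∧ ∀ v ∈ T₀, M ≤ m v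

/-- **LEAF T7.L2.1.H2a.2 = SYSTEMS.**  The coset systems exist.
Proof.  `Hg`: `exists_isDblCosetSystem593` (helper593, `T7/H593/DblSys.lean`; `𝔑₀ ≠ ⊥` from
`base_level`, `g` trivial at infinity); `H'`, `H`: Iwahori coset systems (helper340
`exists_iwCosetSystem340`, helper701 `exists_iwCosetSystem701`); `z'`, `z`: the idele with a
uniformiser at the place and `1` elsewhere, as a scalar matrix. -/
def SysC981 : Prop :=
  ∀ (ℓ : ℕ) (Φ : HeckeEigensystem K' ℂ) (B : L2Base K K'), IsL2Base ℓ Φ B →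
    ∀ g : G K', B.IsBad g →
      ∃ (Hg H' : Finset (G K')) (z' : G K') (H : Finset (G K)) (z : G K),
        IsSys981 B g Hg H' z' H z

/-- **NODE T7.L2.1.H2a.3 = FIRST PAIR** (T3 + Hecke algebra outside `S'` + base change).  For a
common part which contains the ramified places, EVERY level with the four level properties,
every Haar measure of `GL₂(ℂ)` and all exponents of the level: there are `c₁`, `Φ₁`, `F₁` with
the operator properties and the supports of the first pair and the local shape `LocA893`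
(constant `1`).  See the docstring of `H893.BaseC` (construction of `Φ₁ X`, `F₁ X`). -/
def Pair1C981 : Prop :=
  ∀ ℓ : ℕ, IsCycExt K K' ℓ → ℓ ≠ 2 → TotCplx K →
    ∀ Φ : HeckeEigensystem K' ℂ, A0.IsCuspAdelicSph0 K' Φ → ConstOnFibres K Φ → P K' Φ →
      ∀ B : L2Base K K', IsL2Base ℓ Φ B → B.RamIn →
      ∀ 𝔫 : Ideal (𝓞 K), IsLvl981 B 𝔫 →
      ∀ μc : @Measure (GL (Fin 2) ℂ) (borel _), @Measure.IsHaarMeasure _ _ _ (borel _) μc →
      ∀ (T₀ : Finset (HeightOneSpectrum (𝓞 K)))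
        (n n₀ : HeightOneSpectrum (𝓞 K') → ℕ) (m : HeightOneSpectrum (𝓞 K) → ℕ),
        IsExp981 B 𝔫 T₀ n n₀ m →
        ∃ (c₁ : EigData K' → ℂ) (Φ₁ : List (Gen K') → G K' → ℂ)
          (F₁ : List (Gen K') → G K → ℂ),
          IsPair1_981 ℓ Φ B 𝔫 c₁ Φ₁ F₁ ∧
          ∀ X : List (Gen K'), (∀ x ∈ X, x.Out B.S') →
            IsAvgPure (upI (K' := K') 𝔫) 𝔫 T₀ (LocA893 B 𝔫 μc T₀ n m) 1 (Φ₁ X) (F₁ X)

/-- **NODE T7.L2.1.H2a.4 = SECOND PAIR** (T3 + `♮` + `T6.BadMatchC`).  For a common part which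
contains the ramified places and one bad element `g` there is a bound `M` such that for every
level with the four level properties whose exponents at the places of the level are at least
`M`, every Haar measure of `GL₂(ℂ)`, all exponents of the level and EVERY constant `a ≠ 0`:
there are `c₂`, `φ₂`, `f₂` with the operator properties and the supports of the second pair and
the local shape `LocB893` with the constant `a`.  See the docstring of `H893.BaseC`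
(construction of `φ₂`, `f₂`). -/
def Pair2C981 : Prop :=
  ∀ ℓ : ℕ, IsCycExt K K' ℓ → ℓ ≠ 2 → TotCplx K →
    ∀ Φ : HeckeEigensystem K' ℂ, A0.IsCuspAdelicSph0 K' Φ → ConstOnFibres K Φ → P K' Φ →
      ∀ B : L2Base K K', IsL2Base ℓ Φ B → B.RamIn → ∀ g : G K', B.IsBad g →
      ∃ M : ℕ,
      ∀ 𝔫 : Ideal (𝓞 K), IsLvl981 B 𝔫 →
      ∀ μc : @Measure (GL (Fin 2) ℂ) (borel _), @Measure.IsHaarMeasure _ _ _ (borel _) μc →
      ∀ (T₀ : Finset (HeightOneSpectrum (𝓞 K)))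
        (n n₀ : HeightOneSpectrum (𝓞 K') → ℕ) (m : HeightOneSpectrum (𝓞 K) → ℕ),
        IsExp981 B 𝔫 T₀ n n₀ m → (∀ v ∈ T₀, M ≤ m v) →
        ∀ a : ℂ, a ≠ 0 →
        ∃ (c₂ : EigData K' → ℂ) (φ₂ : G K' → ℂ) (f₂ : G K → ℂ),
          IsPair2_981 ℓ Φ B 𝔫 c₂ φ₂ f₂ ∧
          IsAvgPure (upI (K' := K') 𝔫) 𝔫 T₀ (LocB893 B g 𝔫 μc T₀ n n₀ m) a φ₂ f₂

end Nodes

end Fermat.Agent.LT.T7.B981

end
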