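import Mathlib
import Fermat.Agent.LT.T7.Q797.BaseCutSpec

/-!
# Row LT, tower T7, node T7.L2.1.H2a.A `Q797.PairAC797` (sub-architect helper981, registry 2728):
# SECOND CUT -- Spec

OFF-MAIN.  Definitions and frozen Props only (the proved top is `PairATop.lean`).  No hole,
nothing assumed.  ADDITIVE (new names only, suffix `981`).  Vocabulary: the first cut of
helper797 (`T7/Q797/BaseCutSpec.lean`, sha256 e87d7ea9), the cuts of helper893, byte-identical
copies.

    pairAC_of981 : BaseAC981 P K K' LA → StepTC981 K K' LA → StepSC981 K K' LA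
                     → StepMC981 K K' LA → Q797.PairAC797 P K K' LA             (VERBATIM)

## The cut: INDUCTION ON THE WORD

The fields of `Q797.IsPairA797` are of two kinds.

* **Word-free** (`IsGoodA981 φ f`, for ONE pair of functions): test functions of the levels,
  Eisenstein-killing with Eisenstein-killing adjoints, the supports, the local shape
  `IsAvgPure … (LA …) 1 φ f`.
* **Operators**: `R(Φ₁ X) χ = X(C) c₁(C) χ` upstairs, `R(F₁ X) χ = X(C) R(F₁ []) χ` downstairs
  (`C` the base change of the eigen-data `c` of `χ`), and the four fields on `F₁ []`.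

So `Φ₁ (x :: X)`, `F₁ (x :: X)` are obtained from `Φ₁ X`, `F₁ X` by ONE STEP which multiplies
the operators by `x(C)` and preserves `IsGoodA981`:

* **`BaseAC981 P LA`** (NODE; the empty word): the Eisenstein-killing pair `(φ, f)` with the
  scalar `c₁` (T3 explicit form upstairs, base change downstairs).
* **`StepTC981 LA`** (NODE; `x = T_w`, `w ∉ S'`), **`StepSC981 LA`** (NODE; `x = S_w^{± 1}`),
  **`StepMC981 LA`** (NODE; `x = M_{w,d}`, the sphere mean of radius `d > 0` at an infinite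
  place): the step.

## The step (construction; FALSITY CHECKS of helper981)

`φ' = φ ⋆ Θ_x` (the convention of `T5.conv`: `R(φ') = R(φ) R(Θ_x)`), `Θ_x` the BI-INVARIANT Hecke
measure of the generator:
* `x = T_w`: `φ'(g) = q_w^{-1/2} ∑_{h ∈ H} φ(g z⁻¹ h)`, `H` a Hecke coset system at `w`
  (`A0.IsHeckeCosetSystem`: representatives of `K λ K / K`), `z` a scalar uniformiser at `w`
  (`{z⁻¹ h}` = representatives of `K λ⁻¹ K / K`).  CAUTION: `∑_h φ(g h⁻¹)` is NOT right
  invariant under `K_w` in general.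
* `x = S_w^{± 1}`: `φ'(g) = φ(g z^{∓ 1})`.
* `x = M_{w,d}`: `φ'(g) = ∫∫ φ(g Y(α,β)) sin β dα dβ`, `Y(α, β)` the element with the component
  `rotZ α * rotY β * torus d` at `w` and `1` elsewhere (the sphere mean of `φ` in the right
  variable).  CAUTION: `∫∫ φ(g Y(α,β)⁻¹) sin β` is `4π φ(g torus(d)⁻¹)`, NOT right invariant
  under `U(2)`.
`R(φ') χ = R(φ) (Θ_x χ)`: invariance of the Haar measure under right translations
(`IsFrame.right_inv`) and AVERAGING over `K_w` (resp. `U(2)`): `φ` is right invariant under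
`K_w` (`IsTestFn`: `w ∤ 𝔑`) and `χ` too; `∑_h ∫_{K_w} χ(g k h⁻¹ z) dk = ∑_h χ(g h)`
(`K λ⁻¹ K z = K λ K`; at infinity `K a_d⁻¹ K = K a_d K`).  `Θ_x χ = x(C) χ` is the eigen-equation
of `χ` (`IsEigFn.hecke` at `w ∤ 𝔑₀`, `IsEigFn.mean`); NO property of `R(φ) χ` is used.
Eisenstein-killing: `R(φ') Ψ = R(φ) Ψ'`, `Ψ'` a finite sum (resp. a sphere average) of right
translates of `Ψ`, which is Borel-invariant (same ray generator: it is central); the adjoint of
`φ'` is a sum of LEFT translates of the adjoint of `φ`, and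
`R(ψ(h ·)) Ψ (y) = R(ψ) Ψ (y h⁻¹)`.
Downstairs: `Θ_x` is replaced by its base change `b(Θ_x)`: at a place `v` with ONE place `w`
over it (residue degree `ℓ`, `RamIn`) the element of the spherical Hecke algebra of `GL₂(K_v)`
with Satake transform `x^ℓ + y^ℓ` (`T_w`), `(x y)^{± ℓ}` (`S_w^{± 1}`) (`T6.BCExistsC`); at a
split place (`K'_w = K_v`) and at infinity (`K'_w = K_v = ℂ`) the same element as upstairs.
`b(Θ_x) χ = x(C) χ` when `C` is the base change of the eigen-data of `χ` (`IsBCData`: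
`C.a w = satakePow f (c.a v) (c.b v)`, `C.b w = (c.b v)^f`, `C.m w = c.m v`; `T6.SatakeEigenC`;
if `c.b v = 0` then `χ = 0`).
The local shape: the members of the average are the translates of the members of `(φ, f)`;
they are the pure tensors with the components at `w` (resp. at `v`) multiplied by `Θ_x` (resp.
`b(Θ_x)`), the sets `T a`, `T' a` enlarged by `v` and the places over `v`; the places of the
word are outside the level (`w ∉ S'`), so the unit components at the level are unchanged;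
outside the level the components are spherical (`1_{GL₂(𝒪)}` outside `T`) and the Satake
transforms are multiplied (`SphOut893`: `T6.IsBC` is multiplicative, the product formula at
the split places); at infinity `convL305 μc` of the components with ONE component multiplied by
the sphere measure is the product multiplied by the sphere measure (the bi-`U(2)`-invariant
functions commute: Cartan decomposition, `H315.CartanC`; Fubini).
-/

set_option autoImplicit false

open AutomorphicForm IsDedekindDomain NumberField MeasureTheory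
open scoped ComplexConjugate

noncomputable section

namespace Fermat.Agent.LT.T7.B981

open Fermat.Agent.LT.H556 Fermat.Agent.LT.H556.A0 Fermat.Agent.LT.T7
open Fermat.Agent.LT.T7.H305 Fermat.Agent.LT.T7.H893

attribute [local instance] Fermat.Agent.LT.T5.instMeasurableSpaceG

/-! ## 1. The word-free properties, the step -/

section Vocab

variable {K K' : Type} [Field K] [NumberField K] [Field K'] [NumberField K'] [Algebra K K']

/-- **THE WORD-FREE PROPERTIES** of a pair `(φ, f)` (`φ` over `K'`, `f` over `K`): the fields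
`up1_test`, `up1_ek`, `dn1_test`, `dn1_ek`, `up1_supp`, `dn1_supp`, `shape` of
`Q797.IsPairA797` for ONE word. -/
structure IsGoodA981 (LA : Q797.ShapeA797 K K') (ℓ : ℕ) (B : L2Base K K')
    (𝔫 : Ideal (𝓞 K)) (μc : @Measure (GL (Fin 2) ℂ) (borel _))
    (T₀ : Finset (HeightOneSpectrum (𝓞 K)))
    (n : HeightOneSpectrum (𝓞 K') → ℕ) (m : HeightOneSpectrum (𝓞 K) → ℕ)
    (φ : G K' → ℂ) (f : G K → ℂ) : Prop where
  up_test : T5.IsTestFn (upI (K' := K') 𝔫) T5.trivType φ
  up_ek : T5.IsEK B.R'.μ φ ∧ T5.IsEK B.R'.μ (T5.adjointFn φ)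
  dn_test : T5.IsTestFn 𝔫 T5.trivType f
  dn_ek : T5.IsEK B.R.μ f ∧ T5.IsEK B.R.μ (T5.adjointFn f)
  up_supp : ∃ C : Set (G K'), IsCompact C ∧ T5.H32.IsIwSupported32 ℓ B.o C φ
  dn_supp : ∃ C : Set (G K), IsCompact C ∧ T5.H32.IsIwSupported32 1 (fun _ => B.u) C f
  shape : IsAvgPure (upI (K' := K') 𝔫) 𝔫 T₀ (LA B 𝔫 μc T₀ n m) 1 φ f

/-- **THE STEP RELATION**: `(φ', f')` is obtained from `(φ, f)` by the generator `x`: the
operators on the eigenfunctions are multiplied by `x(C)`. -/
structure IsStepA981 (ℓ : ℕ) (B : L2Base K K') (𝔫 : Ideal (𝓞 K)) (x : Gen K')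
    (φ : G K' → ℂ) (f : G K → ℂ) (φ' : G K' → ℂ) (f' : G K → ℂ) : Prop where
  up : ∀ (χ : G K' → ℂ) (C : EigData K'), IsEigFn B.𝔑₀ B.R'.r ℓ B.o χ C →
    ∀ y : G K', T5.Rconv B.R'.μ φ' χ y = x.ev C * T5.Rconv B.R'.μ φ χ y
  dn : ∀ (χ : G K → ℂ) (c : EigData K) (C : EigData K'),
    IsEigFn 𝔫 B.R.r 1 (fun _ => B.u) χ c → IsBCData c C B.S' →
    ∀ y : G K, T5.Rconv B.R.μ f' χ y = x.ev C * T5.Rconv B.R.μ f χ y

/-- **THE OPERATOR OF THE BASE FUNCTION DOWNSTAIRS**: the fields `dn1_wfn`, `dn1_class`,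
`dn1_comm` of `Q797.IsPairA797` for the function `f = F₁ []` (same statements). -/
structure IsDnStab981 (B : L2Base K K') (𝔫 : Ideal (𝓞 K)) (f : G K → ℂ) : Prop where
  wfn : ∀ ψ : G K → ℂ, IsWFn 𝔫 B.R.r 1 (fun _ => B.u) ψ →
    IsWFn 𝔫 B.R.r 1 (fun _ => B.u) (T5.Rconv B.R.μ f ψ)
  cls : ∀ (ψ : G K → ℂ) (c : EigData K), IsEigFn 𝔫 B.R.r 1 (fun _ => B.u) ψ c →
    IsEigFn 𝔫 B.R.r 1 (fun _ => B.u) (T5.Rconv B.R.μ f ψ) c
  comm : ∀ ψ : G K → ℂ, IsWFn 𝔫 B.R.r 1 (fun _ => B.u) ψ →
    ∀ (H : Finset (G K)) (z : G K), IsIwCosetSystem B.u H → IsScalarUniformizerAt B.u z →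
      (∀ x : G K, T5.Rconv B.R.μ f (iwOp B.u H ψ) x
        = iwOp B.u H (T5.Rconv B.R.μ f ψ) x) ∧
      ∀ (k : ℤ) (x : G K), T5.Rconv B.R.μ f (shiftOp z k ψ) x
        = shiftOp z k (T5.Rconv B.R.μ f ψ) x

end Vocab

/-! ## 2. The nodes -/

section Nodes

variable (P : EKCond)
variable (K K' : Type) [Field K] [NumberField K] [Field K'] [NumberField K'] [Algebra K K']

/-- **NODE A.0 = BASE (the empty word; T3 explicit form + base change).**  For a common part
which contains the ramified places, every level with the level properties, every Haar measure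
of `GL₂(ℂ)` and the exponents of the level: a scalar `c₁` and ONE pair `(φ, f)` with the
word-free properties, `R(φ) χ = c₁(C) χ` on the eigenfunctions of the base level upstairs,
`c₁ ≠ 0` on the class of `Φ`, and the three properties of `R(f)` downstairs.
Of record for `P = T7.ekMulti`, `LA = H893.LocA893`.
Construction: docstring of `Q797.PairAC797` and the header of `PairBaseSpec.lean` (third cut). -/
def BaseAC981 (LA : Q797.ShapeA797 K K') : Prop :=
  ∀ ℓ : ℕ, IsCycExt K K' ℓ → ℓ ≠ 2 → TotCplx K →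
    ∀ Φ : HeckeEigensystem K' ℂ, A0.IsCuspAdelicSph0 K' Φ → ConstOnFibres K Φ → P K' Φ →
      ∀ B : L2Base K K', IsL2Base ℓ Φ B → B.RamIn →
      ∀ 𝔫 : Ideal (𝓞 K), Q797.IsLevel797 B 𝔫 →
      ∀ μc : @Measure (GL (Fin 2) ℂ) (borel _), @Measure.IsHaarMeasure _ _ _ (borel _) μc →
      ∀ (T₀ : Finset (HeightOneSpectrum (𝓞 K)))
        (n n₀ : HeightOneSpectrum (𝓞 K') → ℕ) (m : HeightOneSpectrum (𝓞 K) → ℕ),
        Q797.IsExp797 B 𝔫 T₀ n n₀ m →
        ∃ (c₁ : EigData K' → ℂ) (φ : G K' → ℂ) (f : G K → ℂ),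
          IsGoodA981 LA ℓ B 𝔫 μc T₀ n m φ f ∧
          (∀ (χ : G K' → ℂ) (C : EigData K'), IsEigFn B.𝔑₀ B.R'.r ℓ B.o χ C →
            ∀ y : G K', T5.Rconv B.R'.μ φ χ y = c₁ C * χ y) ∧
          (∀ C : EigData K', C.AgreeOut B.S' (eigOf Φ) → c₁ C ≠ 0) ∧
          IsDnStab981 B 𝔫 f

/-- The step for the generators `x` which satisfy `Q` (the common form of the three step
nodes). -/
def StepGC981 (LA : Q797.ShapeA797 K K') (Q : Gen K' → Prop) : Prop :=
  ∀ ℓ : ℕ, IsCycExt K K' ℓ → ℓ ≠ 2 → TotCplx K →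
    ∀ (Φ : HeckeEigensystem K' ℂ) (B : L2Base K K'), IsL2Base ℓ Φ B → B.RamIn →
      ∀ 𝔫 : Ideal (𝓞 K), Q797.IsLevel797 B 𝔫 →
      ∀ μc : @Measure (GL (Fin 2) ℂ) (borel _), @Measure.IsHaarMeasure _ _ _ (borel _) μc →
      ∀ (T₀ : Finset (HeightOneSpectrum (𝓞 K)))
        (n n₀ : HeightOneSpectrum (𝓞 K') → ℕ) (m : HeightOneSpectrum (𝓞 K) → ℕ),
        Q797.IsExp797 B 𝔫 T₀ n n₀ m →
        ∀ x : Gen K', Q x → x.Out B.S' →
        ∀ (φ : G K' → ℂ) (f : G K → ℂ), IsGoodA981 LA ℓ B 𝔫 μc T₀ n m φ f →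
          ∃ p : (G K' → ℂ) × (G K → ℂ),
            IsGoodA981 LA ℓ B 𝔫 μc T₀ n m p.1 p.2 ∧ IsStepA981 ℓ B 𝔫 x φ f p.1 p.2

/-- **NODE A.1 = STEP-T** (`x = T_w`, `w ∉ S'`).  `φ'(g) = q_w^{-1/2} ∑_{h ∈ H} φ(g z⁻¹ h)`,
`H` a Hecke coset system at `w` (`A0.IsHeckeCosetSystem`), `z` a scalar uniformiser at `w`;
downstairs the base change: `w` the only place over `v`: `f ⋆` the element with Satake transform
`x^ℓ + y^ℓ` (`T6.BCExistsC` for `q_w^{-1/2} 1_{K (1,0) K}`); `v` split:
`f'(g) = q_v^{-1/2} ∑_{h ∈ H_v} f(g z_v⁻¹ h)`.  See the header (CAUTION on the side of the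
cosets).  Of record for `LA = H893.LocA893`. -/
def StepTC981 (LA : Q797.ShapeA797 K K') : Prop :=
  StepGC981 K K' LA fun x => ∃ w : HeightOneSpectrum (𝓞 K'), x = Gen.T w

/-- **NODE A.2 = STEP-S** (`x = S_w` or `x = S_w⁻¹`, `w ∉ S'`).  `φ' = φ(· z^{∓ 1})`, `z` a
scalar uniformiser at `w`; downstairs `f' = f(· z_v^{∓ f})`, `z_v` a scalar uniformiser at the
place `v` under `w`, `f` the residue degree of `w` (`ℓ` or `1`).  The components at `w`, `v` are
shifted by the scalar: spherical, Satake transforms multiplied by `(x y)^{± 1}`, `(x y)^{± f}`.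
Of record for `LA = H893.LocA893`. -/
def StepSC981 (LA : Q797.ShapeA797 K K') : Prop :=
  StepGC981 K K' LA fun x => ∃ w : HeightOneSpectrum (𝓞 K'), x = Gen.S w ∨ x = Gen.Sinv w

/-- **NODE A.3 = STEP-M** (`x = M_{w,d}`, `w` an infinite place of `K'`, `d > 0`).
`φ' (g) = ∫∫ φ (g Y(α,β)) sin β dα dβ`, `Y(α, β)` the element with the component
`rotZ α * rotY β * torus d` at `w` and `1` elsewhere (`T7.MeanEig`); downstairs the same at the
place `v` under `w` (`K_v = K'_w = ℂ`; `IsBCData`: `C.m w = c.m v`).  The components at `w`, `v`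
are multiplied by the sphere measure of radius `d`.  See the header (CAUTION on the inverse).
Of record for `LA = H893.LocA893`. -/
def StepMC981 (LA : Q797.ShapeA797 K K') : Prop :=
  StepGC981 K K' LA fun x => ∃ (w : InfinitePlace K') (d : ℝ), x = Gen.M w d

end Nodes

end Fermat.Agent.LT.T7.B981

end
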