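import Mathlib
import Fermat.Agent.LT.T3.M.Explicit
import Fermat.Agent.LT.T7.B981.PairASpec

/-!
# Row LT, tower T7, node T7.L2.1.H2a.A.0 `BaseAC981` (sub-architect helper981, registry 2817):
# THIRD CUT -- Spec

OFF-MAIN.  Definitions and frozen Props only (the proved top is `PairBaseTop.lean`).  No hole,
nothing assumed.  ADDITIVE (new names only, suffix `981`).  Vocabulary: the second cut
(`PairASpec.lean`), the explicit form of station T3.18M (helper14, `T3/M/Explicit.lean`: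
`pureFnM`, `pairSpanM`, `ekOfPairM_c`), byte-identical copies.

    baseAC_of981 : DatC981 K K' → UpGoodC981 K K' → DnGoodC981 K K' → IwSuppC981 K'
        → IwSuppC981 K → DnStabC981 K K' → ShapeC981 K K'
        → BaseAC981 T7.ekMulti K K' H893.LocA893                                (VERBATIM)

## The cut: THE DATA are separated from their CONSEQUENCES

`Dat981 K K'` = the explicit local factors of the base pair: finitely many (`N`) pure tensors
upstairs `pureFnM K' 𝔑 P' (φ₀ i) (Φ i)` with their coordinates `(A' i, β' i)`, and downstairs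
`pureFnM K 𝔫 P (f₀ i) (F i)` with `(A i, β i)` (NO coefficients: they are absorbed in the
components at one infinite place).  `D.up 𝔑`, `D.dn 𝔫` = the sums.

`IsDat981` = the properties of the data:
* the frames `FrameM` upstairs (the datum of `T7.GoodEKM` for `𝔑 = 𝔫 𝒪_{K'}` and `S'`) and
  downstairs (the norm datum: `P` = the places under `P'`, `a₀ = N_{K'/K} a₀'`);
* local Satake pairs at `P'`, `P` and local Abel pairs at infinity (so that both sums are
  members of `T3.M.pairSpanM`, upstairs of `pairSpanMS μc κc`);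
* the coordinates TELESCOPE upstairs (core of T3) AND downstairs (push-forward under the norm
  of the tori), and the Fourier transform upstairs does not vanish at the good parameters;
* the local shape: `LocA893 … (T₀ ∪ P) (φ₀ i) (Φ i) (f₀ i) (F i)` for every `i` (unit components
  at the level, spherical components matched by base change outside, convolution products at
  infinity), and unit components `1_{GL₂(𝒪_w)}` at the places over `P` which are not in `P'`.

* **`DatC981`** (NODE; existence of the data: T3 core + T6 base change + push-forward).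
* **`UpGoodC981`**, **`DnGoodC981`** (leaves; `T3.M.ekOfPairM_c`): test function,
  Eisenstein-killing with adjoint, support at `P ∪ S_∞`, scalars.
* **`IwSuppC981 K`** (leaf, one field): support at `P ∪ S_∞` gives the Iwahori support.
* **`DnStabC981`** (leaf): the three properties of `R(f)` downstairs.
* **`ShapeC981`** (leaf; bookkeeping): `IsAvgPure` for the finite parameter space `Fin N`.
-/

set_option autoImplicit false

open AutomorphicForm IsDedekindDomain NumberField MeasureTheory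
open scoped ComplexConjugate

noncomputable section

namespace Fermat.Agent.LT.T7.B981

open Fermat.Agent.LT.H556 Fermat.Agent.LT.H556.A0 Fermat.Agent.LT.T7
open Fermat.Agent.LT.T7.H305 Fermat.Agent.LT.T7.H893

attribute [local instance] Fermat.Agent.LT.T5.instMeasurableSpaceG

/-! ## 1. The data -/

/-- **THE DATA OF THE BASE PAIR**: the frames and the local factors of `N` pure tensors
upstairs and downstairs. -/
structure Dat981 (K K' : Type) [Field K] [NumberField K] [Field K'] [NumberField K'] where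
  /-- the number of pure tensors -/
  N : ℕ
  /-- the Eisenstein-killing places upstairs -/
  P' : Finset (HeightOneSpectrum (𝓞 K'))
  /-- the exponents upstairs -/
  e' : HeightOneSpectrum (𝓞 K') → ℕ
  /-- the generator upstairs -/
  a₀' : 𝓞 K'
  /-- the generator upstairs as a unit of `K'` -/
  α' : K'ˣ
  /-- the places downstairs (under `P'`) -/
  P : Finset (HeightOneSpectrum (𝓞 K))
  /-- the exponents downstairs -/
  e : HeightOneSpectrum (𝓞 K) → ℕ
  /-- the generator downstairs (the norm) -/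
  a₀ : 𝓞 K
  /-- the generator downstairs as a unit of `K` -/
  α : Kˣ
  /-- the constant of the Abel pairs upstairs for the Haar measure `μc` -/
  κc : ℂ
  /-- the Satake coefficients upstairs -/
  A' : Fin N → HeightOneSpectrum (𝓞 K') → ℤ × ℤ → ℂ
  /-- the Abel transforms upstairs -/
  β' : Fin N → InfinitePlace K' → ℝ × ℝ → ℂ
  /-- the components upstairs at the finite places -/
  φ₀ : Fin N → ∀ w : HeightOneSpectrum (𝓞 K'), GL (Fin 2) (w.adicCompletion K') → ℂ
  /-- the components upstairs at the infinite places -/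
  Φ : Fin N → InfinitePlace K' → GL (Fin 2) ℂ → ℂ
  /-- the Satake coefficients downstairs -/
  A : Fin N → HeightOneSpectrum (𝓞 K) → ℤ × ℤ → ℂ
  /-- the Abel transforms downstairs -/
  β : Fin N → InfinitePlace K → ℝ × ℝ → ℂ
  /-- the components downstairs at the finite places -/
  f₀ : Fin N → ∀ v : HeightOneSpectrum (𝓞 K), GL (Fin 2) (v.adicCompletion K) → ℂ
  /-- the components downstairs at the infinite places -/
  F : Fin N → InfinitePlace K → GL (Fin 2) ℂ → ℂ

section Dat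

variable {K K' : Type} [Field K] [NumberField K] [Field K'] [NumberField K'] [Algebra K K']

/-- The function upstairs: the sum of the pure tensors (`T3.M.pureFnM`) of level `𝔑`. -/
def Dat981.up (D : Dat981 K K') (𝔑 : Ideal (𝓞 K')) : G K' → ℂ := fun g =>
  ∑ i : Fin D.N, T3.M.pureFnM K' 𝔑 D.P' (D.φ₀ i) (D.Φ i) g

/-- The function downstairs: the sum of the pure tensors of level `𝔫`. -/
def Dat981.dn (D : Dat981 K K') (𝔫 : Ideal (𝓞 K)) : G K → ℂ := fun g =>
  ∑ i : Fin D.N, T3.M.pureFnM K 𝔫 D.P (D.f₀ i) (D.F i) g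

/-- The coordinates upstairs. -/
def Dat981.crdUp (D : Dat981 K K') : T3.M.CoordM K' D.P' → ℂ := fun p =>
  ∑ i : Fin D.N, T3.M.pureCoordM K' D.P' (D.A' i) (D.β' i) p

/-- The coordinates downstairs. -/
def Dat981.crdDn (D : Dat981 K K') : T3.M.CoordM K D.P → ℂ := fun p =>
  ∑ i : Fin D.N, T3.M.pureCoordM K D.P (D.A i) (D.β i) p

open Classical in
/-- **THE PROPERTIES OF THE DATA.** -/
structure IsDat981 (Φe : HeckeEigensystem K' ℂ) (B : L2Base K K') (𝔫 : Ideal (𝓞 K))
    (μc : @Measure (GL (Fin 2) ℂ) (borel _)) (T₀ : Finset (HeightOneSpectrum (𝓞 K)))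
    (n : HeightOneSpectrum (𝓞 K') → ℕ) (m : HeightOneSpectrum (𝓞 K) → ℕ)
    (D : Dat981 K K') : Prop where
  /-- the frame upstairs (the datum of `T7.GoodEKM` for `𝔫 𝒪_{K'}`) -/
  frame_up : T3.M.FrameM K' (upI (K' := K') 𝔫) D.P' D.e' D.a₀' D.α'
  /-- the frame downstairs (the norm datum) -/
  frame_dn : T3.M.FrameM K 𝔫 D.P D.e D.a₀ D.α
  /-- the places of `P'` are outside `S'` -/
  out : ∀ w ∈ D.P', w ∉ B.S'
  /-- the non-vanishing clause of `T7.GoodEKM` -/
  good : ∀ z : HeightOneSpectrum (𝓞 K') → ℂ,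
    (∀ w ∈ D.P', z w ^ 2 - Φe.a w * z w + Φe.b w = 0) → ∏ w ∈ D.P', z w ^ D.e' w ≠ 1
  /-- `P` is the set of the places under `P'` -/
  under : ∀ v : HeightOneSpectrum (𝓞 K), v ∈ D.P ↔ ∃ w ∈ D.P', PlaceOver K K' v w
  κc_ne : D.κc ≠ 0
  symA' : ∀ (i : Fin D.N) (w : HeightOneSpectrum (𝓞 K')), T3.AS.IsSymFin (D.A' i w)
  symβ' : ∀ (i : Fin D.N) (w : InfinitePlace K'), T3.AS.IsSymBump (D.β' i w)
  sat_up : ∀ (i : Fin D.N), ∀ w ∈ D.P', T3.AS.IsSatakePair w (D.φ₀ i w) (D.A' i w)
  test_up : ∀ (i : Fin D.N) (w : InfinitePlace K'), T3.AS.IsCplxTest (D.Φ i w)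
  smooth_up : ∀ (i : Fin D.N) (w : InfinitePlace K'), T3.AS.IsCplxSmooth (D.Φ i w)
  abel_up : ∀ (i : Fin D.N) (w : InfinitePlace K'), T3.AS.HasAbelN (D.Φ i w) (D.β' i w)
  acts_up : ∀ (i : Fin D.N) (w : InfinitePlace K'),
    T3.AS.ActsBy μc (D.Φ i w) (D.κc * ∫ x : ℝ × ℝ, D.β' i w x)
  symA : ∀ (i : Fin D.N) (v : HeightOneSpectrum (𝓞 K)), T3.AS.IsSymFin (D.A i v)
  symβ : ∀ (i : Fin D.N) (v : InfinitePlace K), T3.AS.IsSymBump (D.β i v)
  sat_dn : ∀ (i : Fin D.N), ∀ v ∈ D.P, T3.AS.IsSatakePair v (D.f₀ i v) (D.A i v)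
  test_dn : ∀ (i : Fin D.N) (v : InfinitePlace K), T3.AS.IsCplxTest (D.F i v)
  smooth_dn : ∀ (i : Fin D.N) (v : InfinitePlace K), T3.AS.IsCplxSmooth (D.F i v)
  abel_dn : ∀ (i : Fin D.N) (v : InfinitePlace K), T3.AS.HasAbelN (D.F i v) (D.β i v)
  /-- the coordinates upstairs telescope along `c₀' = coordTorM K' P' e' α'` -/
  tel_up : ∀ Δ : T3.M.CoordM K' D.P',
    HasSum (fun j : ℤ => D.crdUp (Δ + j • T3.M.coordTorM K' D.P' D.e' D.α')) 0
  /-- the coordinates downstairs telescope along `c₀ = coordTorM K P e α` -/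
  tel_dn : ∀ Δ : T3.M.CoordM K D.P,
    HasSum (fun j : ℤ => D.crdDn (Δ + j • T3.M.coordTorM K D.P D.e D.α)) 0
  /-- the Fourier transform upstairs does not vanish at the good parameters -/
  ft_ne : ∀ z₁ z₂ : HeightOneSpectrum (𝓞 K') → ℂ,
    (∀ w ∈ D.P', z₁ w ≠ 0) → (∀ w ∈ D.P', z₂ w ≠ 0) →
    (∀ z : HeightOneSpectrum (𝓞 K') → ℂ, (∀ w ∈ D.P', z w = z₁ w ∨ z w = z₂ w) →
      ∏ w ∈ D.P', z w ^ D.e' w ≠ 1) →
    T3.M.ftCoordM K' D.P' D.crdUp z₁ z₂ ≠ 0
  /-- unit components at the places over `P` which are not in `P'` -/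
  unit_rest : ∀ (i : Fin D.N) (w : HeightOneSpectrum (𝓞 K')), w ∉ D.P' →
    (∃ v ∈ D.P, PlaceOver K K' v w) → D.φ₀ i w = unitFn893 0
  /-- the local shape of every pair of pure tensors, for the set `T = T₀ ∪ P` -/
  loc : ∀ i : Fin D.N,
    LocA893 B 𝔫 μc T₀ n m (T₀ ∪ D.P) (D.φ₀ i) (D.Φ i) (D.f₀ i) (D.F i)

end Dat

/-! ## 2. The node and the leaves -/

section Nodes

variable (K K' : Type) [Field K] [NumberField K] [Field K'] [NumberField K'] [Algebra K K']

/-- **NODE A.0.D = DATA (existence; T3 core + T6 base change + push-forward).**  For a cusp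
form `Φ` with good multi-place EK data, a common part which contains the ramified places,
every level with the level properties, every Haar measure of `GL₂(ℂ)` and the exponents of the
level there are data with `IsDat981`.
Construction.  `(P', e', a₀')` from `T7.GoodEKM K' Φ (𝔫 𝒪_{K'}) S'`; `Φ' ∈ SymSpanM K' P'`
telescoping with non-vanishing Fourier transform from `T3.M.EKCoreC` (closed), written as a
finite sum of symmetric pure tensors `pureCoordM (A' i) (β' i)` (the coefficients absorbed in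
`β' i w₀`); `φ₀ i w` from `T3.AS.SatakeLocC` at `w ∈ P'`, `unitFn893 (n w)` elsewhere;
`Φ i w` from `T3.AS.AbelCplxSmoothC` (rescaled to the given `μc`: uniqueness of the Haar
measure).  Downstairs: `P` = the places under `P'`, `e v = ∑_{w ∣ v, w ∈ P'} f_w e'_w`,
`a₀ = N_{K'/K} a₀'`; `A i v` = the push-forward of `⊗_{w ∣ v} A' i w` under
`(m_w) ↦ ∑ f_w m_w` (`laurent (A i v) x y = ∏_w laurent (A' i w) (x^{f_w}) (y^{f_w})`),
`f₀ i v` from `T3.AS.SatakeLocC` at `v ∈ P`, `unitFn893 (m v)` elsewhere;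
`F i v = convL305 μc (Φ i (w j))` (independent of the enumeration: the bi-`U(2)`-invariant
functions commute), `β i v = c_μ^{ℓ-1} ·` the convolution of the `β' i w` (the Abel transform
is multiplicative).  Telescoping downstairs: the coordinates downstairs are the push-forward
of the coordinates upstairs under the norm of the coordinate groups (fibre sums and fibre
integrals), the push-forward commutes with the translations, `N(c₀') = c₀`, and for fixed `Δ`
only finitely many `j` contribute.  The shape: bridge between the Satake pairs of T3 and the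
spherical functions of T6 (`IsSphFn893`, `satT893 q Av x y = laurent A x y`: same
normalisation `T = √q (x + y)`, `S = x y`). -/
def DatC981 : Prop :=
  ∀ ℓ : ℕ, IsCycExt K K' ℓ → ℓ ≠ 2 → TotCplx K →
    ∀ Φ : HeckeEigensystem K' ℂ, A0.IsCuspAdelicSph0 K' Φ → ConstOnFibres K Φ → GoodEKM K' Φ →
      ∀ B : L2Base K K', IsL2Base ℓ Φ B → B.RamIn →
      ∀ 𝔫 : Ideal (𝓞 K), Q797.IsLevel797 B 𝔫 →
      ∀ μc : @Measure (GL (Fin 2) ℂ) (borel _), @Measure.IsHaarMeasure _ _ _ (borel _) μc →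
      ∀ (T₀ : Finset (HeightOneSpectrum (𝓞 K)))
        (n n₀ : HeightOneSpectrum (𝓞 K') → ℕ) (m : HeightOneSpectrum (𝓞 K) → ℕ),
        Q797.IsExp797 B 𝔫 T₀ n n₀ m →
        ∃ D : Dat981 K K', IsDat981 Φ B 𝔫 μc T₀ n m D

/-- **LEAF A.0.U = UP** (`T3.M.ekOfPairM_c` for `K'`).  The sum upstairs is a test function of
level `𝔫 𝒪_{K'}`, Eisenstein-killing with Eisenstein-killing adjoint, supported at
`P' ∪ S_∞`, acts by a scalar `c₁(C)` on the eigenfunctions of the base level, `c₁ ≠ 0` on the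
class of `Φ`.
Proof.  `K'` is totally complex.  `(D.crdUp, D.up 𝔑) ∈ pairSpanMS K' μc κc 𝔑 P'`
(`mem_pairSpanM_sum` with coefficients `1`; `Submodule.sum_mem`), `tel_up`, `frame_up`:
`ekOfPairM_c` gives the first four properties and scalars `c z₁ z₂ m` with
`c = κ₀ ftCoordM crdUp z₁ z₂` at parameter `0`.  `c₁ C = 1` if `C.b w = 0` for some `w ∈ P'`
(then `χ = 0`: `H732.eq_zero_of_b_eq_zero732`), `= c (root1) (root2) C.m` otherwise
(`H732.roots_spec732`; model: `T3.M.ekOpExistGenM_of`).  `IsEigFn 𝔑₀ … χ C` gives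
`IsMeanLevel K' 𝔑 C.m χ` (`𝔑 ≤ 𝔑₀`) and `IsHeckeEigenAt χ w (C.a w) (C.b w)` at `w ∈ P'`
(`w ∉ S'`, `IsL2Base.mem_S'`).  `c₁ ≠ 0`: `ft_ne`, `good`, `C.m = sph0` at the positive radii. -/
def UpGoodC981 : Prop :=
  ∀ ℓ : ℕ, IsCycExt K K' ℓ → TotCplx K →
    ∀ (Φ : HeckeEigensystem K' ℂ) (B : L2Base K K'), IsL2Base ℓ Φ B →
      ∀ 𝔫 : Ideal (𝓞 K), Q797.IsLevel797 B 𝔫 →
      ∀ μc : @Measure (GL (Fin 2) ℂ) (borel _), @Measure.IsHaarMeasure _ _ _ (borel _) μc →
      ∀ (T₀ : Finset (HeightOneSpectrum (𝓞 K)))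
        (n : HeightOneSpectrum (𝓞 K') → ℕ) (m : HeightOneSpectrum (𝓞 K) → ℕ)
        (D : Dat981 K K'), IsDat981 Φ B 𝔫 μc T₀ n m D →
        T5.IsTestFn (upI (K' := K') 𝔫) T5.trivType (D.up (upI (K' := K') 𝔫)) ∧
        T5.IsEK B.R'.μ (D.up (upI (K' := K') 𝔫)) ∧
        T5.IsEK B.R'.μ (T5.adjointFn (D.up (upI (K' := K') 𝔫))) ∧
        T3.M.IsSuppAtM K' (upI (K' := K') 𝔫) D.P' (D.up (upI (K' := K') 𝔫)) ∧
        ∃ c₁ : EigData K' → ℂ,
          (∀ (χ : G K' → ℂ) (C : EigData K'), IsEigFn B.𝔑₀ B.R'.r ℓ B.o χ C →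
            ∀ y : G K', T5.Rconv B.R'.μ (D.up (upI (K' := K') 𝔫)) χ y = c₁ C * χ y) ∧
          ∀ C : EigData K', C.AgreeOut B.S' (eigOf Φ) → c₁ C ≠ 0

/-- **LEAF A.0.W = DOWN** (`T3.M.ekOfPairM_c` for `K`).  The sum downstairs is a test function
of level `𝔫`, Eisenstein-killing with Eisenstein-killing adjoint, supported at `P ∪ S_∞`, and
acts by scalars on the joint eigenfunctions (`IsMeanLevel`, Hecke-eigen at the places of `P`).
Proof.  `(D.crdDn, D.dn 𝔫) ∈ pairSpanM K 𝔫 P` (`mem_pairSpanM_sum`), `tel_dn`, `frame_dn`: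
`ekOfPairM_c`; the case `b v = 0` as in `T3.M.ekOpExistGenM_of` (`φ = 0`). -/
def DnGoodC981 : Prop :=
  ∀ ℓ : ℕ, IsCycExt K K' ℓ → TotCplx K →
    ∀ (Φ : HeckeEigensystem K' ℂ) (B : L2Base K K'), IsL2Base ℓ Φ B →
      ∀ 𝔫 : Ideal (𝓞 K), Q797.IsLevel797 B 𝔫 →
      ∀ μc : @Measure (GL (Fin 2) ℂ) (borel _), @Measure.IsHaarMeasure _ _ _ (borel _) μc →
      ∀ (T₀ : Finset (HeightOneSpectrum (𝓞 K)))
        (n : HeightOneSpectrum (𝓞 K') → ℕ) (m : HeightOneSpectrum (𝓞 K) → ℕ)
        (D : Dat981 K K'), IsDat981 Φ B 𝔫 μc T₀ n m D →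
        T5.IsTestFn 𝔫 T5.trivType (D.dn 𝔫) ∧
        T5.IsEK B.R.μ (D.dn 𝔫) ∧ T5.IsEK B.R.μ (T5.adjointFn (D.dn 𝔫)) ∧
        T3.M.IsSuppAtM K 𝔫 D.P (D.dn 𝔫) ∧
        ∃ c : (HeightOneSpectrum (𝓞 K) → ℂ) → (HeightOneSpectrum (𝓞 K) → ℂ) →
            (InfinitePlace K → ℝ → ℂ) → ℂ,
          ∀ (φ : G K → ℂ) (mv : InfinitePlace K → ℝ → ℂ), T3.M.IsMeanLevel K 𝔫 mv φ →
          ∀ a b : HeightOneSpectrum (𝓞 K) → ℂ,
            (∀ v ∈ D.P, IsHeckeEigenAt φ v (a v) (b v)) →
            ∀ g : G K, T5.Rconv B.R.μ (D.dn 𝔫) φ g = c a b mv * φ g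

end Nodes

section OneField

variable (K : Type) [Field K] [NumberField K]

/-- **LEAF A.0.S = IW-SUPP (one field).**  A function of compact support which is supported at
`P ∪ S_∞` (`T3.M.IsSuppAtM`: on the support the components at the finite places outside `P`
lie in `U(𝔫)_v`) is Iwahori-supported along places `o j ∣ 𝔫` outside `P`, in a compact set.
Proof.  `C = tsupport f` (`T5.H32.isIwSupported_of_support32`); at `o j` the entries of
`y - 1`, `y⁻¹ - 1` lie in the closure of `𝔫`, which is contained in the maximal ideal: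
`y`, `y⁻¹` are integral and the lower left entry of `y` has valuation `< 1`. -/
def IwSuppC981 : Prop :=
  ∀ (𝔫 : Ideal (𝓞 K)) (P : Finset (HeightOneSpectrum (𝓞 K))) (l : ℕ)
    (o : ℕ → HeightOneSpectrum (𝓞 K)),
    (∀ j < l, (o j).asIdeal ∣ 𝔫) → (∀ j < l, o j ∉ P) →
    ∀ f : G K → ℂ, HasCompactSupport f → T3.M.IsSuppAtM K 𝔫 P f →
      ∃ C : Set (G K), IsCompact C ∧ T5.H32.IsIwSupported32 l o C f

end OneField

section Nodes2

variable (K K' : Type) [Field K] [NumberField K] [Field K'] [NumberField K'] [Algebra K K']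

/-- **LEAF A.0.C = DN-STAB.**  A test function `f` of level `𝔫` downstairs which is supported
at `P ∪ S_∞` (`P` prime to `𝔫`) and acts by scalars on the joint eigenfunctions has the three
properties of `IsDnStab981`.
Proof (POINTWISE in `y`, no splitting of the Haar measure).  On the support of `f` the
component `y_u` lies in `U(𝔫)_u ⊆ I_u` (`IsSuppAtM`, `u ∉ P` because `u ∣ 𝔫`); write
`y = y^u y_u` (`y^u` trivial at `u`).  For `ψ` right invariant under `U(𝔫)` and under the Iwahori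
subgroup at `u` and `h` supported at `u`: `ψ(x h y) = ψ(x h y^u) = ψ(x y^u h)`.
* Iwahori-invariance of `R(f) ψ`: for `k ∈ I_u`, `ψ(x k y) = ψ(x y^u k) = ψ(x y^u) = ψ(x y)`.
* `iwOp`: `∑_h ψ(x h y) = ∑_h ψ(x y^u h) = ∑_h ψ(x y^u y_u h) = ∑_h ψ(x y h)`: left
  multiplication by `y_u ∈ I_u` permutes the cosets `h I_u` (`H` is a FULL system of
  representatives of `I t I / I`: `q` pairwise inequivalent elements; kits helper340 / helper701
  / helper83).
* `shiftOp`: `z` is central.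
`wfn`: `R(f) ψ` is a cusp function (left invariance; level: on the support `ψ(x u y)` with
`f` left invariant under `U(𝔫)`: substitution `y ↦ u⁻¹ y`; `K_∞`: the same; ray: `r` is central;
constant term: Fubini; bounded, continuous: `f` continuous of compact support), invariant under
the positive scalars (central), Iwahori-invariant at `u` (above).  `cls`: `ψ` is
`IsMeanLevel K 𝔫 c.m`, Hecke-eigen at `v ∈ P` (`v ∤ 𝔫`), so `R(f) ψ = c ψ`, and `IsEigFn` is
stable under scalars.  `comm`: above. -/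
def DnStabC981 : Prop :=
  ∀ ℓ : ℕ, IsCycExt K K' ℓ → TotCplx K →
    ∀ (Φ : HeckeEigensystem K' ℂ) (B : L2Base K K'), IsL2Base ℓ Φ B →
      ∀ 𝔫 : Ideal (𝓞 K), Q797.IsLevel797 B 𝔫 →
      ∀ (P : Finset (HeightOneSpectrum (𝓞 K))), (∀ v ∈ P, ¬ v.asIdeal ∣ 𝔫) →
      ∀ f : G K → ℂ, T5.IsTestFn 𝔫 T5.trivType f → T3.M.IsSuppAtM K 𝔫 P f →
        (∃ c : (HeightOneSpectrum (𝓞 K) → ℂ) → (HeightOneSpectrum (𝓞 K) → ℂ) →
            (InfinitePlace K → ℝ → ℂ) → ℂ,
          ∀ (φ : G K → ℂ) (mv : InfinitePlace K → ℝ → ℂ), T3.M.IsMeanLevel K 𝔫 mv φ →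
          ∀ a b : HeightOneSpectrum (𝓞 K) → ℂ,
            (∀ v ∈ P, IsHeckeEigenAt φ v (a v) (b v)) →
            ∀ g : G K, T5.Rconv B.R.μ f φ g = c a b mv * φ g) →
        IsDnStab981 B 𝔫 f

/-- **LEAF A.0.P = SHAPE (bookkeeping).**  The sums of the data are an average of pure tensors
with the local shape `LocA893`, constant `1`: `Ω = Fin N` (discrete, counting measure),
`T a = T₀ ∪ P`, `T' a` = the finite set of the places over `T₀ ∪ P`.
Proof.  BRIDGE `pureFnM K' 𝔑 P' (φ₀ i) (Φ i) = pure305 T' (φ₀ i) (Φ i)`: at a finite place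
`w ∉ P'` the condition of `OutsideUM` (`y - 1`, `y⁻¹ - 1` in the closure of `𝔑`) is
`InU (n w)` (`IsExp797.lev_n`; `n w = 0` and the closure is `𝒪_w` outside the level), i.e. the
component `unitFn893 (n w)` is `1` (`loc`: unit components over `T₀`; `unit_rest`) resp. the
condition of `OutT305`; the same downstairs.  Every member is a test function
(`T3.M.PureRegMC`, `pureSmoothM`, `isTestFn_T5`: closed, `T3.M.openM_c`).  Joint continuity and
the common compact support: `Fin N` is finite and discrete.  The integral over the counting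
measure is the sum. -/
def ShapeC981 : Prop :=
  ∀ ℓ : ℕ, IsCycExt K K' ℓ → TotCplx K →
    ∀ (Φ : HeckeEigensystem K' ℂ) (B : L2Base K K'), IsL2Base ℓ Φ B →
      ∀ 𝔫 : Ideal (𝓞 K), Q797.IsLevel797 B 𝔫 →
      ∀ μc : @Measure (GL (Fin 2) ℂ) (borel _), @Measure.IsHaarMeasure _ _ _ (borel _) μc →
      ∀ (T₀ : Finset (HeightOneSpectrum (𝓞 K)))
        (n n₀ : HeightOneSpectrum (𝓞 K') → ℕ) (m : HeightOneSpectrum (𝓞 K) → ℕ),
        Q797.IsExp797 B 𝔫 T₀ n n₀ m →
        ∀ D : Dat981 K K', IsDat981 Φ B 𝔫 μc T₀ n m D →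
          IsAvgPure (upI (K' := K') 𝔫) 𝔫 T₀ (LocA893 B 𝔫 μc T₀ n m) 1
            (D.up (upI (K' := K') 𝔫)) (D.dn 𝔫)

end Nodes2

end Fermat.Agent.LT.T7.B981

end
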