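import Mathlib
import Fermat.Agent.LT.T7.B981.PairBaseSpec

/-!
# Row LT, tower T7, node T7.L2.1.H2a.A.0.D `DatC981` (sub-architect helper981, registry 2916):
# FOURTH CUT -- Spec

OFF-MAIN.  Definitions and frozen Props only (the proved top is `PairDatTop.lean`).  No hole,
nothing assumed.  ADDITIVE (new names only, suffix `981`).  Vocabulary: the third cut
(`PairBaseSpec.lean`: `Dat981`, `IsDat981`), station T3.18M (helper14), byte-identical copies.

    datC_of981 : UpDatC981 K' → NormFrameC981 K K' → DownFinC981 K K' → DownArchC981 K K'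
                   → PushTelC981 K K' → DatC981 K K'                            (VERBATIM)

## The cut: the PUSH-FORWARD under the norm, place by place

* **`UpDatC981 K`** (leaf, ONE field; T3 core, closed stations): for a frame and EVERY Haar
  measure `μc` of `GL₂(ℂ)`: finitely many symmetric pure tensors whose sum telescopes and has a
  non-vanishing Fourier transform, with local Satake pairs and local Abel pairs (with the
  scalar `κc` for `μc`).
* **`NormFrameC981`** (leaf; number theory): the norm datum downstairs.  `P` = the places under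
  `P'`, `e v = ∑_{w ∈ P', w ∣ v} f_w e'_w` (`fib981`, `resDeg981`), `a₀ = N_{K'/K} a₀'`,
  `log |α|_v = ∑_{w ∣ v} log |α'|_w` at the infinite places.
* **`DownFinC981`** (NODE; finite places, for ONE pure tensor): `A v` = the push-forward
  `pushFin981 P' A' v` of the Satake coefficients over the fibre, `f₀ v` a Satake pair for it
  (`T3.AS.SatakeLocC`), unit components at the level, and the clause `SphOut893` (bridge between
  the Satake pairs of T3 and the spherical functions of T6).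
* **`DownArchC981`** (NODE; infinite places, for ONE pure tensor): a constant `c_μ` (depending
  on `μc` only) such that `F v = convL305 μc (Φ (w j))` has the Abel transform
  `c_μ^{ℓ-1} · convR981 (β' (w j))` (the Abel transform is multiplicative), and `ArchOk893`.
* **`PushTelC981`** (leaf; MATHLIB + the definitions of the coordinates): the push-forward of a
  telescoping coordinate function telescopes.
-/

set_option autoImplicit false

open AutomorphicForm IsDedekindDomain NumberField MeasureTheory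
open scoped ComplexConjugate

noncomputable section

namespace Fermat.Agent.LT.T7.B981

open Fermat.Agent.LT.H556 Fermat.Agent.LT.H556.A0 Fermat.Agent.LT.T7
open Fermat.Agent.LT.T7.H305 Fermat.Agent.LT.T7.H893

attribute [local instance] Fermat.Agent.LT.T5.instMeasurableSpaceG

/-! ## 1. The push-forwards -/

section Push

variable {K K' : Type} [Field K] [NumberField K] [Field K'] [NumberField K'] [Algebra K K']

/-- The residue degree of `w` over `v` (`N w = (N v) ^ f`; junk if `w` is not over `v`). -/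
def resDeg981 (v : HeightOneSpectrum (𝓞 K)) (w : HeightOneSpectrum (𝓞 K')) : ℕ :=
  Nat.log (Ideal.absNorm v.asIdeal) (Ideal.absNorm w.asIdeal)

open Classical in
/-- The places of `P'` over `v`. -/
def fib981 (P' : Finset (HeightOneSpectrum (𝓞 K'))) (v : HeightOneSpectrum (𝓞 K)) :
    Finset (HeightOneSpectrum (𝓞 K')) :=
  P'.filter fun w => PlaceOver K K' v w

open Classical in
/-- **THE PUSH-FORWARD OF THE SATAKE COEFFICIENTS** over the fibre of `v`:
`(pushFin981 P' A' v)(M) = ∑ ∏_{w} A' w (m_w)`, the sum over the families `(m_w)_{w ∈ P', w ∣ v}`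
with `∑_w f_w m_w = M`.  (`laurent (pushFin981 P' A' v) x y = ∏_w laurent (A' w) (x^{f_w})
(y^{f_w})`.) -/
def pushFin981 (P' : Finset (HeightOneSpectrum (𝓞 K')))
    (A' : HeightOneSpectrum (𝓞 K') → ℤ × ℤ → ℂ) (v : HeightOneSpectrum (𝓞 K))
    (M : ℤ × ℤ) : ℂ :=
  ∑ᶠ mm : (fib981 (K := K) P' v) → ℤ × ℤ,
    if ∑ w, (resDeg981 v w.1 : ℤ) • mm w = M then ∏ w, A' w.1 (mm w) else 0

/-- Iterated convolution on `ℝ²` (left nested, as `H305.convL305`):
`(β₀ * β₁)(X) = ∫ β₀(t) β₁(X - t) dt`. -/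
def convR981 (β : ℕ → ℝ × ℝ → ℂ) : ℕ → ℝ × ℝ → ℂ
  | 0 => β 0
  | (j + 1) => fun X => ∫ t : ℝ × ℝ, convR981 β j t * β (j + 1) (X - t)

/-- `wen 0, …, wen (l-1)` are `l` distinct infinite places of `K'` over `v` (the enumerations of
the clause `arch` of `H305.LocHyp305`). -/
def IsEnum981 (l : ℕ) (v : InfinitePlace K) (wen : ℕ → InfinitePlace K') : Prop :=
  (∀ j : ℕ, (wen j).comap (algebraMap K K') = v) ∧
    ∀ j j' : ℕ, j < l → j' < l → wen j = wen j' → j = j'

end Push

/-! ## 2. The leaves and the nodes -/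

section OneField

variable (K : Type) [Field K] [NumberField K]

/-- **LEAF D.1 = UP-DATA (ONE field; T3 core + closed local stations).**  For a totally complex
field, EVERY Haar measure `μc` of `GL₂(ℂ)` and a frame: finitely many symmetric pure tensors
`pureCoordM (A i) (β i)` whose sum telescopes along `coordTorM K P e α` and has a non-vanishing
Fourier transform at the good parameters, with Satake pairs `(f₀ i v, A i v)` at `v ∈ P` and
Abel pairs `(F i w, β i w)` at infinity, `R(F i w) = κc ∫ β i w` at parameter `0`.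
Proof.  `T3.M.EKCoreC` (closed: `(T3.M.openM_c K).core`) for `ι₁ = P`, `ι₂ = InfinitePlace K`:
`Φ ∈ SymSpanCrd`, telescoping, `ftCrd Φ ≠ 0`.  A member of the span is a finite sum
`∑ c_i pureCrd (A_i) (β_i)` of symmetric pure tensors (`Submodule.mem_span_set'` /
`Submodule.span_induction`); the coefficient `c_i` is absorbed in `β_i w₀` for ONE infinite
place `w₀` (`IsSymBump (c • β)`); `A i v = 0` outside `P`.  `T3.AS.SatakeLocC`
(`T3.M.satakeLoc_closed`) gives `f₀ i v`; `T3.AS.AbelCplxSmoothC` (`abelCplxSmooth_closed`) gives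
a Haar measure `μc₀`, `κc₀ ≠ 0` and `F i w` with `ActsBy μc₀`; `μc = t • μc₀` (uniqueness of
the Haar measure, `t ≠ 0, ∞`): `ActsBy μc (F i w) (t κc₀ ∫ β i w)`.  Model:
`T3.M.pairExistM_of`, `T3.M.ekOpExistGenM_of`. -/
def UpDatC981 : Prop :=
  (∀ w : InfinitePlace K, w.IsComplex) →
  ∀ μc : @Measure (GL (Fin 2) ℂ) (borel _), @Measure.IsHaarMeasure _ _ _ (borel _) μc →
  ∀ (𝔫 : Ideal (𝓞 K)) (P : Finset (HeightOneSpectrum (𝓞 K)))
    (e : HeightOneSpectrum (𝓞 K) → ℕ) (a₀ : 𝓞 K) (α : Kˣ), T3.M.FrameM K 𝔫 P e a₀ α →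
    ∃ (N : ℕ) (κc : ℂ) (A : Fin N → HeightOneSpectrum (𝓞 K) → ℤ × ℤ → ℂ)
      (β : Fin N → InfinitePlace K → ℝ × ℝ → ℂ)
      (f₀ : Fin N → ∀ v : HeightOneSpectrum (𝓞 K), GL (Fin 2) (v.adicCompletion K) → ℂ)
      (F : Fin N → InfinitePlace K → GL (Fin 2) ℂ → ℂ),
      κc ≠ 0 ∧
      (∀ (i : Fin N) (v : HeightOneSpectrum (𝓞 K)), T3.AS.IsSymFin (A i v)) ∧
      (∀ (i : Fin N) (w : InfinitePlace K), T3.AS.IsSymBump (β i w)) ∧
      (∀ (i : Fin N), ∀ v ∈ P, T3.AS.IsSatakePair v (f₀ i v) (A i v)) ∧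
      (∀ (i : Fin N) (w : InfinitePlace K), T3.AS.IsCplxTest (F i w)) ∧
      (∀ (i : Fin N) (w : InfinitePlace K), T3.AS.IsCplxSmooth (F i w)) ∧
      (∀ (i : Fin N) (w : InfinitePlace K), T3.AS.HasAbelN (F i w) (β i w)) ∧
      (∀ (i : Fin N) (w : InfinitePlace K),
        T3.AS.ActsBy μc (F i w) (κc * ∫ x : ℝ × ℝ, β i w x)) ∧
      (∀ Δ : T3.M.CoordM K P,
        HasSum (fun j : ℤ => ∑ i : Fin N,
          T3.M.pureCoordM K P (A i) (β i) (Δ + j • T3.M.coordTorM K P e α)) 0) ∧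
      ∀ z₁ z₂ : HeightOneSpectrum (𝓞 K) → ℂ,
        (∀ w ∈ P, z₁ w ≠ 0) → (∀ w ∈ P, z₂ w ≠ 0) →
        (∀ z : HeightOneSpectrum (𝓞 K) → ℂ, (∀ w ∈ P, z w = z₁ w ∨ z w = z₂ w) →
          ∏ w ∈ P, z w ^ e w ≠ 1) →
        T3.M.ftCoordM K P (fun p => ∑ i : Fin N, T3.M.pureCoordM K P (A i) (β i) p) z₁ z₂ ≠ 0

end OneField

section Nodes

variable (K K' : Type) [Field K] [NumberField K] [Field K'] [NumberField K'] [Algebra K K']

/-- **LEAF D.2 = NORM-FRAME (number theory).**  A frame upstairs for the level `𝔫 𝒪_{K'}` gives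
the norm frame downstairs for the level `𝔫`.
Proof.  `P` = the (finite) set of the places under `P'`; `e v` as stated; `a₀ = N_{K'/K} a₀'`
(`Algebra.norm`, integral), `α = N α'`.  `(a₀) = N((a₀')) = ∏_w N(w)^{e'_w}`, `N(w) = v^{f_w}`
(`Ideal.relNorm` / `Ideal.spanNorm`; `resDeg981 v w = f_w` because `N w = (N v)^{f_w}`,
`N v ≥ 2`).  `a₀ ≡ 1 mod 𝔫`: `a₀' ≡ 1 mod 𝔫 𝒪_{K'}`, the conjugates too (`𝔫 𝒪_{K'}` is stable),
and `𝔫 𝒪_{K'} ∩ 𝒪_K = 𝔫`.  `v ∤ 𝔫` for `v ∈ P`: `w ∤ 𝔫 𝒪_{K'}`.  Infinite places: `K` is totally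
complex, `|N α'|_v = ∏_{w ∣ v} |α'|_w` (the `ℓ` places over `v` are the `ℓ` extensions of the
embedding). -/
def NormFrameC981 : Prop :=
  ∀ ℓ : ℕ, IsCycExt K K' ℓ → ℓ ≠ 2 → TotCplx K →
    ∀ (𝔫 : Ideal (𝓞 K)) (P' : Finset (HeightOneSpectrum (𝓞 K')))
      (e' : HeightOneSpectrum (𝓞 K') → ℕ) (a₀' : 𝓞 K') (α' : K'ˣ), 𝔫 ≠ ⊥ →
      T3.M.FrameM K' (upI (K' := K') 𝔫) P' e' a₀' α' →
      ∃ (P : Finset (HeightOneSpectrum (𝓞 K))) (e : HeightOneSpectrum (𝓞 K) → ℕ)
        (a₀ : 𝓞 K) (α : Kˣ),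
        T3.M.FrameM K 𝔫 P e a₀ α ∧
        (∀ v : HeightOneSpectrum (𝓞 K), v ∈ P ↔ ∃ w ∈ P', PlaceOver K K' v w) ∧
        (∀ v ∈ P, e v = ∑ w ∈ fib981 (K := K) P' v, resDeg981 v w * e' w) ∧
        ∀ (v : InfinitePlace K) (wen : ℕ → InfinitePlace K'), IsEnum981 ℓ v wen →
          Real.log (v (α : K)) = ∑ j ∈ Finset.range ℓ, Real.log ((wen j) (α' : K'))

open Classical in
/-- **NODE D.3 = DOWN-FIN (finite places, ONE pure tensor).**  Components upstairs: Satake
pairs `(φ₀ w, A' w)` at `w ∈ P'` (outside `S'`, hence unramified: `RamIn`), `1_{GL₂(𝒪_w)}` at the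
other places over `P`.  Then there are `A`, `f₀` downstairs: `A v = pushFin981 P' A' v` and
`(f₀ v, A v)` a Satake pair at `v ∈ P`, unit components at the level, and the clause
`SphOut893` for `T = T₀ ∪ P`.
Proof.  `v ∈ P` is unramified in `K'` (`S'` is a union of fibres: `IsL2Base.fibre`), so either
ONE place `w` over `v`, of residue degree `ℓ`, or `ℓ` places of residue degree `1`.
`pushFin981` is symmetric of finite support, `laurent (pushFin981 P' A' v) x y =
∏_{w ∈ P', w ∣ v} laurent (A' w) (x^{f_w}) (y^{f_w})`; `f₀ v` from `T3.AS.SatakeLocC`.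
BRIDGE T3 → T6: a Satake pair `(f, A)` at a place of norm `q` is a spherical function
`IsSphFn893 f Av` (`Av (a, b) = f(diag(ϖ^a, ϖ^b))`, `a ≥ b`: Cartan decomposition) with
`satT893 q Av x y = laurent A x y` for `x, y ≠ 0` (both are the eigenvalue of `R(f)` on the
spherical vector with the parameters `(x, y)`: `HasSatakeEigen`, `T6.SatakeEigenC`; same
normalisation `T = √q (x + y)`, `S = x y`; or the `N`-integral of `1_{K λ K}`);
`unitFn893 0 = 1_{GL₂(𝒪)}` is `IsSphFn893` with `Av = δ_{(0,0)}`, `satT893 = 1`.  Then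
`T6.IsBC ℓ q (A w) Av` is `laurent (A v) x y = laurent (A' w) (x^ℓ) (y^ℓ)` (`N w = q^ℓ`), and
the product formula at a split place is the formula for `laurent (pushFin981 …)`. -/
def DownFinC981 : Prop :=
  ∀ ℓ : ℕ, IsCycExt K K' ℓ → ℓ ≠ 2 → TotCplx K →
    ∀ (Φ : HeckeEigensystem K' ℂ) (B : L2Base K K'), IsL2Base ℓ Φ B → B.RamIn →
      ∀ 𝔫 : Ideal (𝓞 K), Q797.IsLevel797 B 𝔫 →
      ∀ (T₀ : Finset (HeightOneSpectrum (𝓞 K)))
        (n n₀ : HeightOneSpectrum (𝓞 K') → ℕ) (m : HeightOneSpectrum (𝓞 K) → ℕ),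
        Q797.IsExp797 B 𝔫 T₀ n n₀ m →
      ∀ (P' : Finset (HeightOneSpectrum (𝓞 K'))) (P : Finset (HeightOneSpectrum (𝓞 K))),
        (∀ w ∈ P', w ∉ B.S') →
        (∀ v : HeightOneSpectrum (𝓞 K), v ∈ P ↔ ∃ w ∈ P', PlaceOver K K' v w) →
      ∀ (A' : HeightOneSpectrum (𝓞 K') → ℤ × ℤ → ℂ)
        (φ₀ : ∀ w : HeightOneSpectrum (𝓞 K'), GL (Fin 2) (w.adicCompletion K') → ℂ),
        (∀ w : HeightOneSpectrum (𝓞 K'), T3.AS.IsSymFin (A' w)) →
        (∀ w ∈ P', T3.AS.IsSatakePair w (φ₀ w) (A' w)) →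
        (∀ w : HeightOneSpectrum (𝓞 K'), w ∉ P' → (∃ v ∈ P, PlaceOver K K' v w) →
          φ₀ w = unitFn893 0) →
        ∃ (A : HeightOneSpectrum (𝓞 K) → ℤ × ℤ → ℂ)
          (f₀ : ∀ v : HeightOneSpectrum (𝓞 K), GL (Fin 2) (v.adicCompletion K) → ℂ),
          (∀ v : HeightOneSpectrum (𝓞 K), T3.AS.IsSymFin (A v)) ∧
          (∀ v ∈ P, A v = pushFin981 (K := K) P' A' v) ∧
          (∀ v ∈ P, T3.AS.IsSatakePair v (f₀ v) (A v)) ∧
          (∀ v ∈ T₀, f₀ v = unitFn893 (m v)) ∧
          SphOut893 B.l T₀ (T₀ ∪ P) φ₀ f₀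

/-- **NODE D.4 = DOWN-ARCH (infinite places, ONE pure tensor).**  For every Haar measure `μc`
of `GL₂(ℂ)` there is a constant `c_μ` such that for Abel pairs `(Φ w, β' w)` upstairs there are
Abel pairs `(F v, β v)` downstairs with `β v = c_μ^{ℓ-1} · convR981 (β' (wen j))` for EVERY
enumeration of the places over `v`, and `ArchOk893` (`F v = convL305 μc (Φ (wen j))` for every
enumeration, continuity, compact supports, invariance under the complex conjugation and under
`U(2)` on both sides).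
Proof.  `K` is totally complex of degree `ℓ` under `K'`: exactly `ℓ` places over `v`; choose
an enumeration and `F v = convL305 μc (Φ (wen j)) (ℓ - 1)`.  BINARY STEP (local, `GL₂(ℂ)`):
for continuous bi-`U(2)`-invariant `F₁`, `F₂` of compact support (smooth) with Abel transforms
`β₁`, `β₂`: `T6.convInt μc F₁ F₂` is continuous, bi-`U(2)`-invariant, of compact support
(smooth), equal to `T6.convInt μc F₂ F₁` (Gelfand: `F(g) = F(gᵗ)` by the Cartan decomposition,
`H315.CartanC`), and has the Abel transform `c_μ · (β₁ * β₂)` (Iwasawa decomposition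
`G = N A K` and the modulus: `T3.AS.N893.IwasawaFormC`; `c_μ` = the constant of `μc` in the
Iwasawa coordinates), which is a symmetric bump.  Independence of the enumeration: commutativity
and associativity.  Invariance under the complex conjugation: Cartan decomposition. -/
def DownArchC981 : Prop :=
  ∀ ℓ : ℕ, IsCycExt K K' ℓ → ℓ ≠ 2 → TotCplx K →
    ∀ μc : @Measure (GL (Fin 2) ℂ) (borel _), @Measure.IsHaarMeasure _ _ _ (borel _) μc →
      ∃ cμ : ℂ, ∀ D : CompData K K', D.l = ℓ →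
        ∀ (n : HeightOneSpectrum (𝓞 K') → ℕ) (m : HeightOneSpectrum (𝓞 K) → ℕ)
          (φ₀ : ∀ w : HeightOneSpectrum (𝓞 K'), GL (Fin 2) (w.adicCompletion K') → ℂ)
          (f₀ : ∀ v : HeightOneSpectrum (𝓞 K), GL (Fin 2) (v.adicCompletion K) → ℂ)
          (Φ : InfinitePlace K' → GL (Fin 2) ℂ → ℂ) (β' : InfinitePlace K' → ℝ × ℝ → ℂ),
          (∀ w : InfinitePlace K', T3.AS.IsSymBump (β' w)) →
          (∀ w : InfinitePlace K', T3.AS.IsCplxTest (Φ w)) →
          (∀ w : InfinitePlace K', T3.AS.IsCplxSmooth (Φ w)) →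
          (∀ w : InfinitePlace K', T3.AS.HasAbelN (Φ w) (β' w)) →
          ∃ (F : InfinitePlace K → GL (Fin 2) ℂ → ℂ) (β : InfinitePlace K → ℝ × ℝ → ℂ),
            (∀ v : InfinitePlace K, T3.AS.IsSymBump (β v)) ∧
            (∀ v : InfinitePlace K, T3.AS.IsCplxTest (F v)) ∧
            (∀ v : InfinitePlace K, T3.AS.IsCplxSmooth (F v)) ∧
            (∀ v : InfinitePlace K, T3.AS.HasAbelN (F v) (β v)) ∧
            (∀ (v : InfinitePlace K) (wen : ℕ → InfinitePlace K'), IsEnum981 ℓ v wen →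
              β v = cμ ^ (ℓ - 1) • convR981 (fun j => β' (wen j)) (ℓ - 1)) ∧
            ArchOk893 D μc n m φ₀ Φ f₀ F

/-- **LEAF D.5 = PUSH-TEL (MATHLIB + the definitions of the coordinates).**  If the sum of the
pure tensors upstairs telescopes along `c₀' = coordTorM K' P' e' α'`, then the sum of the
pushed pure tensors downstairs telescopes along `c₀ = coordTorM K P e α`.
Proof.  Every `w ∈ P'` lies over exactly one `v`, and `v ∈ P`: `P' = ⊔_{v ∈ P} fib981 P' v`;
over every infinite place of `K` there are exactly `ℓ` places of `K'`.  So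
`∏_{v ∈ P} pushFin981 P' A' v (M_v) = ∑_{m ∈ (ℤ²)^{P'}, N(m) = M} ∏_{w ∈ P'} A' w (m_w)`
(`N(m)_v = ∑_{w ∣ v} f_w m_w`; finite sums: finite supports) and
`∏_v convR981 (β' (wen_v j)) (ℓ-1) (X_v)` = the integral of `∏_w β' w (x_w)` over the fibre
`{x : ∑_{w ∣ v} x_w = X_v}` (Lebesgue measure in the coordinates `x_{wen_v j}`, `j < ℓ - 1`;
Fubini, continuous functions of compact support).  Hence
`crdDn (M, X) = c ∑_m ∫_x crdUp (m, x)` (`c = c_μ^{(ℓ-1) |S_∞(K)|}`), the translation by `c₀'`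
maps the fibre over `Δ` onto the fibre over `Δ + c₀` (`N(c₀') = c₀`: the hypotheses on `e`,
`α`), and for fixed `Δ` only finitely many `(j, m)` contribute (`m + j e'` in the finite
support and `N(m) = M` determine `j`: `e v > 0`, `P ≠ ∅`).  So
`∑_j crdDn (Δ + j c₀) = c ∑_m ∫_x ∑_j crdUp ((m, x) + j c₀') = 0`.  (The statement is about
finite index sets with a map and weights; an abstract version over `Fintype`s may be proved
first.) -/
def PushTelC981 : Prop :=
  ∀ ℓ : ℕ, IsCycExt K K' ℓ → ℓ ≠ 2 → TotCplx K →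
    ∀ (P' : Finset (HeightOneSpectrum (𝓞 K'))) (P : Finset (HeightOneSpectrum (𝓞 K)))
      (e' : HeightOneSpectrum (𝓞 K') → ℕ) (e : HeightOneSpectrum (𝓞 K) → ℕ)
      (α' : K'ˣ) (α : Kˣ),
      (∀ v : HeightOneSpectrum (𝓞 K), v ∈ P ↔ ∃ w ∈ P', PlaceOver K K' v w) →
      P.Nonempty → (∀ v ∈ P, 0 < e v) →
      (∀ v ∈ P, e v = ∑ w ∈ fib981 (K := K) P' v, resDeg981 v w * e' w) →
      (∀ (v : InfinitePlace K) (wen : ℕ → InfinitePlace K'), IsEnum981 ℓ v wen →
        Real.log (v (α : K)) = ∑ j ∈ Finset.range ℓ, Real.log ((wen j) (α' : K'))) →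
      ∀ (cμ : ℂ) (N : ℕ) (A' : Fin N → HeightOneSpectrum (𝓞 K') → ℤ × ℤ → ℂ)
        (β' : Fin N → InfinitePlace K' → ℝ × ℝ → ℂ)
        (A : Fin N → HeightOneSpectrum (𝓞 K) → ℤ × ℤ → ℂ)
        (β : Fin N → InfinitePlace K → ℝ × ℝ → ℂ),
        (∀ (i : Fin N) (w : HeightOneSpectrum (𝓞 K')), T3.AS.IsSymFin (A' i w)) →
        (∀ (i : Fin N) (w : InfinitePlace K'), T3.AS.IsSymBump (β' i w)) →
        (∀ (i : Fin N), ∀ v ∈ P, A i v = pushFin981 (K := K) P' (A' i) v) →
        (∀ (i : Fin N) (v : InfinitePlace K) (wen : ℕ → InfinitePlace K'), IsEnum981 ℓ v wen →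
          β i v = cμ ^ (ℓ - 1) • convR981 (fun j => β' i (wen j)) (ℓ - 1)) →
        (∀ Δ : T3.M.CoordM K' P',
          HasSum (fun j : ℤ => ∑ i : Fin N,
            T3.M.pureCoordM K' P' (A' i) (β' i) (Δ + j • T3.M.coordTorM K' P' e' α')) 0) →
        ∀ Δ : T3.M.CoordM K P,
          HasSum (fun j : ℤ => ∑ i : Fin N,
            T3.M.pureCoordM K P (A i) (β i) (Δ + j • T3.M.coordTorM K P e α)) 0

end Nodes

end Fermat.Agent.LT.T7.B981

end

/-! ## Appendix (v2, ADDITIVE, 18:50Z): equation lemmas of `convR981`, REALISED ONCE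

`simp [convR981]`, `rw [convR981]`, `unfold convR981` realise `convR981.eq_def` in the using
module unless an imported module has done so; two such copies differ and the kernel checker of
the grader rejects the closure (same form as the appendix of `T6/Spec.lean` of row-lead helper17
and of `T7/H305/MatchSpec.lean` v2 of helper305).  Realised here, they are declared by no other
module.  NOTHING above this line is changed (v1 = sha256 df231e98). -/

namespace Fermat.Agent.LT.T7.B981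

theorem convR981_eqns_realised : True := by
  have _h0 := @convR981.eq_def
  have _h1 := @convR981.eq_1
  have _h2 := @convR981.eq_2
  have _h3 := @convR981.induct
  have _h4 := @convR981.induct_unfolding
  have _h5 := @convR981.fun_cases
  have _h6 := @convR981.fun_cases_unfolding
  trivial

end Fermat.Agent.LT.T7.B981
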