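import Mathlib
import Fermat.Agent.LT.T7.B981.BaseSpec

/-!
# Row LT, tower T7, node T7.L2.1.H2a `BaseC` (sub-architect helper981, registry 2597):
# FIRST CUT -- the proved top

OFF-MAIN.  Every proof is complete, nothing assumed.

    baseC_of981 : HaarCplxC981 → LvlC981 K K' → SysC981 K K' → Pair1C981 P K K'
                    → Pair2C981 P K K' → H893.BaseC P K K'                       (VERBATIM)
-/

set_option autoImplicit false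

open AutomorphicForm IsDedekindDomain NumberField MeasureTheory
open scoped ComplexConjugate

noncomputable section

namespace Fermat.Agent.LT.T7.B981

open Fermat.Agent.LT.H556 Fermat.Agent.LT.H556.A0 Fermat.Agent.LT.T7
open Fermat.Agent.LT.T7.H305 Fermat.Agent.LT.T7.H893

attribute [local instance] Fermat.Agent.LT.T5.instMeasurableSpaceG

section Top

variable {P : EKCond}
variable {K K' : Type} [Field K] [NumberField K] [Field K'] [NumberField K'] [Algebra K K']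

/-- The pre-data assembled from the four parts. -/
def mkPre981 (𝔫 : Ideal (𝓞 K)) (c₁ c₂ : EigData K' → ℂ) (Φ₁ : List (Gen K') → G K' → ℂ)
    (φ₂ : G K' → ℂ) (F₁ : List (Gen K') → G K → ℂ) (f₂ : G K → ℂ) (Hg H' : Finset (G K'))
    (z' : G K') (H : Finset (G K)) (z : G K) : L2Pre K K' where
  𝔫 := 𝔫
  c₁ := c₁
  c₂ := c₂
  Φ₁ := Φ₁
  φ₂ := φ₂
  F₁ := F₁
  f₂ := f₂
  Hg := Hg
  H' := H'
  z' := z'
  H := H
  z := z
  m₀ := fun _ => 0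

/-- The operator properties of the assembled pre-data. -/
theorem isL2PreOp_mk981 {ℓ : ℕ} {Φ : HeckeEigensystem K' ℂ} {B : L2Base K K'} {g : G K'}
    {𝔫 : Ideal (𝓞 K)} {c₁ c₂ : EigData K' → ℂ} {Φ₁ : List (Gen K') → G K' → ℂ}
    {φ₂ : G K' → ℂ} {F₁ : List (Gen K') → G K → ℂ} {f₂ : G K → ℂ} {Hg H' : Finset (G K')}
    {z' : G K'} {H : Finset (G K)} {z : G K}
    (hL : IsLvl981 B 𝔫) (hS : IsSys981 B g Hg H' z' H z)
    (h1 : IsPair1_981 ℓ Φ B 𝔫 c₁ Φ₁ F₁) (h2 : IsPair2_981 ℓ Φ B 𝔫 c₂ φ₂ f₂) :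
    IsL2PreOp ℓ Φ B g (mkPre981 𝔫 c₁ c₂ Φ₁ φ₂ F₁ f₂ Hg H' z' H z) where
  level_ne := hL.level_ne
  level_g := hL.level_g
  mem_S'_g := hL.mem_S'_g
  u_level := hL.u_level
  sysg := hS.sysg
  sys' := hS.sys'
  unif' := hS.unif'
  sys := hS.sys
  unif := hS.unif
  up1_test := h1.up1_test
  up1_ek := h1.up1_ek
  up1_op := h1.up1_op
  up2_test := h2.up2_test
  up2_ek := h2.up2_ek
  up2_inv := h2.up2_inv
  up2_op := h2.up2_op
  up2_kill := h2.up2_kill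
  up_ne := fun C hC => ⟨h1.up1_ne C hC, h2.up2_ne C hC⟩
  dn1_test := h1.dn1_test
  dn1_ek := h1.dn1_ek
  dn1_op := h1.dn1_op
  dn1_wfn := h1.dn1_wfn
  dn1_class := h1.dn1_class
  dn1_comm := h1.dn1_comm
  dn2_test := h2.dn2_test
  dn2_ek := h2.dn2_ek
  dn2_inv := h2.dn2_inv
  dn2_wfn := h2.dn2_wfn
  dn2_class := h2.dn2_class
  dn2_comm := h2.dn2_comm
  dn2_kill := h2.dn2_kill

/-- The supports of the assembled pre-data. -/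
theorem isL2PreSupp_mk981 {ℓ : ℕ} {Φ : HeckeEigensystem K' ℂ} {B : L2Base K K'}
    {𝔫 : Ideal (𝓞 K)} {c₁ c₂ : EigData K' → ℂ} {Φ₁ : List (Gen K') → G K' → ℂ}
    {φ₂ : G K' → ℂ} {F₁ : List (Gen K') → G K → ℂ} {f₂ : G K → ℂ} (Hg H' : Finset (G K'))
    (z' : G K') (H : Finset (G K)) (z : G K)
    (h1 : IsPair1_981 ℓ Φ B 𝔫 c₁ Φ₁ F₁) (h2 : IsPair2_981 ℓ Φ B 𝔫 c₂ φ₂ f₂) :
    IsL2PreSupp ℓ B (mkPre981 𝔫 c₁ c₂ Φ₁ φ₂ F₁ f₂ Hg H' z' H z) where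
  up1_supp := h1.up1_supp
  up2_supp := h2.up2_supp
  dn1_supp := h1.dn1_supp
  dn2_supp := h2.dn2_supp

/-- **THE TOP OF THE FIRST CUT OF `BaseC`** (VERBATIM the node of helper893). -/
theorem baseC_of981 (hH : HaarCplxC981) (hL : LvlC981 K K') (hS : SysC981 K K')
    (h1 : Pair1C981 P K K') (h2 : Pair2C981 P K K') : H893.BaseC P K K' := by
  intro ℓ hcyc hℓ hcplx Φ hΦ hconst hP B hB hram g hg
  obtain ⟨μc, hμc⟩ := hH
  obtain ⟨M, hM⟩ := h2 ℓ hcyc hℓ hcplx Φ hΦ hconst hP B hB hram g hg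
  obtain ⟨𝔫, T₀, n, n₀, m, hlvl, hexp, hbd⟩ := hL ℓ Φ B hB M
  obtain ⟨Hg, H', z', H, z, hsys⟩ := hS ℓ Φ B hB g hg
  obtain ⟨c₁, Φ₁, F₁, hp1, hsh1⟩ :=
    h1 ℓ hcyc hℓ hcplx Φ hΦ hconst hP B hB hram 𝔫 hlvl μc hμc T₀ n n₀ m hexp
  refine ⟨𝔫, μc, hμc, fun a ha => ?_⟩
  obtain ⟨c₂, φ₂, f₂, hp2, hsh2⟩ := hM 𝔫 hlvl μc hμc T₀ n n₀ m hexp hbd a ha
  refine ⟨mkPre981 𝔫 c₁ c₂ Φ₁ φ₂ F₁ f₂ Hg H' z' H z, rfl,
    isL2PreOp_mk981 hlvl hsys hp1 hp2, isL2PreSupp_mk981 Hg H' z' H z hp1 hp2, ?_⟩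
  exact ⟨T₀, n, n₀, m, hexp.mem, hexp.lvl, hexp.lvl_up, hexp.lvl_base, hsh1, hsh2⟩

end Top

end Fermat.Agent.LT.T7.B981

end
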