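import Mathlib
import Fermat.Agent.LT.T7.B981.PairASpec
import Fermat.Agent.LT.T7.B981.BaseSpec

/-!
# Row LT, tower T7, node T7.L2.1.H2a.A `Q797.PairAC797` (sub-architect helper981, registry 2728):
# SECOND CUT -- the PROVED top

OFF-MAIN.  Complete proofs, nothing assumed.  ADDITIVE (new names only, suffix `981`).

    stepAll_of981 : StepTC981 K K' LA → StepSC981 K K' LA → StepMC981 K K' LA
                      → StepGC981 K K' LA (fun _ => True)
    pairAC_of981  : BaseAC981 P K K' LA → StepTC981 K K' LA → StepSC981 K K' LA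
                      → StepMC981 K K' LA → Q797.PairAC797 P K K' LA            (VERBATIM)
    pair1C_of_pairA981 : Q797.PairAC797 P K K' H893.LocA893 → Pair1C981 P K K'   (bridge)

Induction on the word: `(Φ₁ (x :: X), F₁ (x :: X))` = the step of `x` applied to
`(Φ₁ X, F₁ X)` (a choice); `wordEv (x :: X) C = x.ev C * wordEv X C`.
-/

set_option autoImplicit false

open AutomorphicForm IsDedekindDomain NumberField MeasureTheory
open scoped ComplexConjugate

noncomputable section

namespace Fermat.Agent.LT.T7.B981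

open Fermat.Agent.LT.H556 Fermat.Agent.LT.H556.A0 Fermat.Agent.LT.T7
open Fermat.Agent.LT.T7.H305 Fermat.Agent.LT.T7.H893

attribute [local instance] Fermat.Agent.LT.T5.instMeasurableSpaceG

variable {P : EKCond}
variable {K K' : Type} [Field K] [NumberField K] [Field K'] [NumberField K'] [Algebra K K']

theorem wordEv_nil981 (C : EigData K') : wordEv ([] : List (Gen K')) C = 1 := by
  simp [wordEv]

theorem wordEv_cons981 (x : Gen K') (X : List (Gen K')) (C : EigData K') :
    wordEv (x :: X) C = x.ev C * wordEv X C := by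
  simp [wordEv]

/-- The step for every generator from the three step nodes. -/
theorem stepAll_of981 {LA : Q797.ShapeA797 K K'} (hT : StepTC981 K K' LA)
    (hS : StepSC981 K K' LA) (hM : StepMC981 K K' LA) :
    StepGC981 K K' LA (fun _ => True) := by
  intro ℓ hcyc hl hcx Φ B hB hram 𝔫 hlev μc hμc T₀ n n₀ m hexp x _ hout φ f hgood
  cases x with
  | T w =>
    exact hT ℓ hcyc hl hcx Φ B hB hram 𝔫 hlev μc hμc T₀ n n₀ m hexp _ ⟨w, rfl⟩ hout φ f hgood
  | S w =>
    exact hS ℓ hcyc hl hcx Φ B hB hram 𝔫 hlev μc hμc T₀ n n₀ m hexp _ ⟨w, Or.inl rfl⟩ hout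
      φ f hgood
  | Sinv w =>
    exact hS ℓ hcyc hl hcx Φ B hB hram 𝔫 hlev μc hμc T₀ n n₀ m hexp _ ⟨w, Or.inr rfl⟩ hout
      φ f hgood
  | M w d =>
    exact hM ℓ hcyc hl hcx Φ B hB hram 𝔫 hlev μc hμc T₀ n n₀ m hexp _ ⟨w, d, rfl⟩ hout
      φ f hgood

/-- **THE TOP OF THE SECOND CUT**: the node `Q797.PairAC797` from the base and the three
steps. -/
theorem pairAC_of981 {LA : Q797.ShapeA797 K K'} (hB : BaseAC981 P K K' LA)
    (hT : StepTC981 K K' LA) (hS : StepSC981 K K' LA) (hM : StepMC981 K K' LA) :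
    Q797.PairAC797 P K K' LA := by
  classical
  intro ℓ hcyc hl hcx Φ hΦ hconst hP B hB' hram 𝔫 hlev μc hμc T₀ n n₀ m hexp
  obtain ⟨c₁, φ, f, hgood, hop, hne, hstab⟩ :=
    hB ℓ hcyc hl hcx Φ hΦ hconst hP B hB' hram 𝔫 hlev μc hμc T₀ n n₀ m hexp
  have hstep := stepAll_of981 hT hS hM ℓ hcyc hl hcx Φ B hB' hram 𝔫 hlev μc hμc T₀ n n₀ m hexp
  -- the step as a function (junk when the hypotheses fail)
  let stepFn : Gen K' → (G K' → ℂ) × (G K → ℂ) → (G K' → ℂ) × (G K → ℂ) := fun x p =>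
    if h : x.Out B.S' ∧ IsGoodA981 LA ℓ B 𝔫 μc T₀ n m p.1 p.2 then
      Classical.choose (hstep x trivial h.1 p.1 p.2 h.2)
    else p
  let W : List (Gen K') → (G K' → ℂ) × (G K → ℂ) := fun X => X.foldr stepFn (φ, f)
  have hWc : ∀ (x : Gen K') (X : List (Gen K')), W (x :: X) = stepFn x (W X) := fun _ _ => rfl
  have key : ∀ X : List (Gen K'), (∀ x ∈ X, x.Out B.S') →
      IsGoodA981 LA ℓ B 𝔫 μc T₀ n m (W X).1 (W X).2 ∧
      (∀ (χ : G K' → ℂ) (C : EigData K'), IsEigFn B.𝔑₀ B.R'.r ℓ B.o χ C →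
        ∀ y : G K', T5.Rconv B.R'.μ (W X).1 χ y = wordEv X C * c₁ C * χ y) ∧
      (∀ (χ : G K → ℂ) (c : EigData K) (C : EigData K'),
        IsEigFn 𝔫 B.R.r 1 (fun _ => B.u) χ c → IsBCData c C B.S' →
        ∀ y : G K, T5.Rconv B.R.μ (W X).2 χ y = wordEv X C * T5.Rconv B.R.μ f χ y) := by
    intro X
    induction X with
    | nil =>
      intro _
      refine ⟨hgood, fun χ C hχ y => ?_, fun χ c C _ _ y => ?_⟩
      · rw [wordEv_nil981, one_mul]
        exact hop χ C hχ y
      · rw [wordEv_nil981, one_mul]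
        rfl
    | cons x X ih =>
      intro hX
      have hx : x.Out B.S' := hX x List.mem_cons_self
      obtain ⟨ig, iu, id⟩ := ih fun y hy => hX y (List.mem_cons_of_mem _ hy)
      have hcond : x.Out B.S' ∧ IsGoodA981 LA ℓ B 𝔫 μc T₀ n m (W X).1 (W X).2 := ⟨hx, ig⟩
      have hspec := Classical.choose_spec (hstep x trivial hx (W X).1 (W X).2 ig)
      have hWeq : W (x :: X) = Classical.choose (hstep x trivial hx (W X).1 (W X).2 ig) := by
        rw [hWc]
        simp only [stepFn]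
        rw [dif_pos hcond]
      rw [hWeq]
      refine ⟨hspec.1, fun χ C hχ y => ?_, fun χ c C hχ hC y => ?_⟩
      · rw [hspec.2.up χ C hχ y, iu χ C hχ y, wordEv_cons981]
        ring
      · rw [hspec.2.dn χ c C hχ hC y, id χ c C hχ hC y, wordEv_cons981]
        ring
  refine ⟨c₁, fun X => (W X).1, fun X => (W X).2, ?_⟩
  exact
    { up1_test := fun X hX => (key X hX).1.up_test
      up1_ek := fun X hX => (key X hX).1.up_ek
      up1_op := fun X hX χ C hχ y => (key X hX).2.1 χ C hχ y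
      up1_ne := hne
      dn1_test := fun X hX => (key X hX).1.dn_test
      dn1_ek := fun X hX => (key X hX).1.dn_ek
      dn1_op := fun X hX χ c C hχ hC y => (key X hX).2.2 χ c C hχ hC y
      dn1_wfn := hstab.wfn
      dn1_class := hstab.cls
      dn1_comm := hstab.comm
      up1_supp := fun X hX => (key X hX).1.up_supp
      dn1_supp := fun X hX => (key X hX).1.dn_supp
      shape := fun X hX => (key X hX).1.shape }

/-- **BRIDGE**: the node of helper797 for the shape of record gives the node `Pair1C981` of the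
first cut of helper981 (same statement). -/
theorem pair1C_of_pairA981 (h : Q797.PairAC797 P K K' LocA893) : Pair1C981 P K K' := by
  intro ℓ hcyc hl hcx Φ hΦ hconst hP B hB hram 𝔫 hlev μc hμc T₀ n n₀ m hexp
  obtain ⟨c₁, Φ₁, F₁, hp⟩ := h ℓ hcyc hl hcx Φ hΦ hconst hP B hB hram 𝔫
    ⟨hlev.level_ne, hlev.level_g, hlev.mem_S'_g, hlev.u_level⟩ μc hμc T₀ n n₀ m
    ⟨hexp.mem, hexp.lvl, hexp.lvl_up, hexp.lvl_base⟩
  exact ⟨c₁, Φ₁, F₁,
    { up1_test := hp.up1_test
      up1_ek := hp.up1_ek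
      up1_op := hp.up1_op
      up1_ne := hp.up1_ne
      dn1_test := hp.dn1_test
      dn1_ek := hp.dn1_ek
      dn1_op := hp.dn1_op
      dn1_wfn := hp.dn1_wfn
      dn1_class := hp.dn1_class
      dn1_comm := hp.dn1_comm
      up1_supp := hp.up1_supp
      dn1_supp := hp.dn1_supp }, hp.shape⟩

end Fermat.Agent.LT.T7.B981

end
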