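import Mathlib
import Fermat.Agent.LT.T7.B981.PairBaseSpec

/-!
# Row LT, tower T7, node T7.L2.1.H2a.A.0 `BaseAC981` (sub-architect helper981, registry 2817):
# THIRD CUT -- the PROVED top

OFF-MAIN.  Complete proofs, nothing assumed.  ADDITIVE (new names only, suffix `981`).

    baseAC_of981 : DatC981 K K' → UpGoodC981 K K' → DnGoodC981 K K' → IwSuppC981 K'
        → IwSuppC981 K → DnStabC981 K K' → ShapeC981 K K'
        → BaseAC981 T7.ekMulti K K' H893.LocA893                                (VERBATIM)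
-/

set_option autoImplicit false

open AutomorphicForm IsDedekindDomain NumberField MeasureTheory
open scoped ComplexConjugate

noncomputable section

namespace Fermat.Agent.LT.T7.B981

open Fermat.Agent.LT.H556 Fermat.Agent.LT.H556.A0 Fermat.Agent.LT.T7
open Fermat.Agent.LT.T7.H305 Fermat.Agent.LT.T7.H893

attribute [local instance] Fermat.Agent.LT.T5.instMeasurableSpaceG

variable {K K' : Type} [Field K] [NumberField K] [Field K'] [NumberField K'] [Algebra K K']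

/-- **THE TOP OF THE THIRD CUT**: the base pair for the multi-place EK condition and the local
shape of record. -/
theorem baseAC_of981 (hD : DatC981 K K') (hU : UpGoodC981 K K') (hW : DnGoodC981 K K')
    (hS' : IwSuppC981 K') (hS : IwSuppC981 K) (hC : DnStabC981 K K') (hP : ShapeC981 K K') :
    BaseAC981 ekMulti K K' LocA893 := by
  intro ℓ hcyc hl hcx Φ hΦ hconst hek B hB hram 𝔫 hlev μc hμc T₀ n n₀ m hexp
  obtain ⟨D, hDat⟩ :=
    hD ℓ hcyc hl hcx Φ hΦ hconst hek B hB hram 𝔫 hlev μc hμc T₀ n n₀ m hexp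
  obtain ⟨u1, u2, u3, u4, c₁, u5, u6⟩ := hU ℓ hcyc hcx Φ B hB 𝔫 hlev μc hμc T₀ n m D hDat
  obtain ⟨d1, d2, d3, d4, hc⟩ := hW ℓ hcyc hcx Φ B hB 𝔫 hlev μc hμc T₀ n m D hDat
  have hs_up := hS' (upI (K' := K') 𝔫) D.P' ℓ B.o
    (fun j _ => (hlev.mem_S'_g (B.o j)).1 (hB.orbit_level j))
    (fun j _ h => hDat.out (B.o j) h (hB.orbit_level j))
    (D.up (upI (K' := K') 𝔫)) u1.supp u4
  have hs_dn := hS 𝔫 D.P 1 (fun _ => B.u) (fun _ _ => hlev.u_level)
    (fun _ _ h => hDat.frame_dn.prime B.u h hlev.u_level) (D.dn 𝔫) d1.supp d4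
  refine ⟨c₁, D.up (upI (K' := K') 𝔫), D.dn 𝔫,
    ⟨u1, ⟨u2, u3⟩, d1, ⟨d2, d3⟩, hs_up, hs_dn,
      hP ℓ hcyc hcx Φ B hB 𝔫 hlev μc hμc T₀ n n₀ m hexp D hDat⟩,
    u5, u6, ?_⟩
  exact hC ℓ hcyc hcx Φ B hB 𝔫 hlev D.P hDat.frame_dn.prime (D.dn 𝔫) d1 d4 hc

end Fermat.Agent.LT.T7.B981

end
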