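import Mathlib
import Fermat.Agent.LT.T7.B981.PairDatSpec

/-!
# Row LT, tower T7, node T7.L2.1.H2a.A.0.D `DatC981` (sub-architect helper981, registry 2916):
# FOURTH CUT -- the PROVED top

OFF-MAIN.  Complete proofs, nothing assumed.  ADDITIVE (new names only, suffix `981`).

    datC_of981 : UpDatC981 K' → NormFrameC981 K K' → DownFinC981 K K' → DownArchC981 K K'
                   → PushTelC981 K K' → DatC981 K K'                            (VERBATIM)
-/

set_option autoImplicit false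

open AutomorphicForm IsDedekindDomain NumberField MeasureTheory
open scoped ComplexConjugate

noncomputable section

namespace Fermat.Agent.LT.T7.B981

open Fermat.Agent.LT.H556 Fermat.Agent.LT.H556.A0 Fermat.Agent.LT.T7
open Fermat.Agent.LT.T7.H305 Fermat.Agent.LT.T7.H893

attribute [local instance] Fermat.Agent.LT.T5.instMeasurableSpaceG

variable {K K' : Type} [Field K] [NumberField K] [Field K'] [NumberField K'] [Algebra K K']

/-- The place under `w` is unique. -/
theorem placeOver_unique981 {v v₀ : HeightOneSpectrum (𝓞 K)} {w : HeightOneSpectrum (𝓞 K')}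
    (h : PlaceOver K K' v w) (h₀ : PlaceOver K K' v₀ w) : v = v₀ := by
  apply HeightOneSpectrum.ext
  ext x
  have e1 := h x (algebraMap (𝓞 K) (𝓞 K') x) rfl
  have e2 := h₀ x (algebraMap (𝓞 K) (𝓞 K') x) rfl
  exact e1.trans e2.symm

/-- A place over a divisor of `𝔫` divides `𝔫 𝒪_{K'}`. -/
theorem dvd_upI_of_placeOver981 {v : HeightOneSpectrum (𝓞 K)} {w : HeightOneSpectrum (𝓞 K')}
    (h : PlaceOver K K' v w) {𝔫 : Ideal (𝓞 K)} (hv : v.asIdeal ∣ 𝔫) :
    w.asIdeal ∣ upI (K' := K') 𝔫 := by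
  rw [Ideal.dvd_iff_le] at hv ⊢
  unfold upI
  rw [Ideal.map_le_iff_le_comap]
  intro x hx
  rw [Ideal.mem_comap]
  exact (h x (algebraMap (𝓞 K) (𝓞 K') x) rfl).1 (hv hx)

/-- The extension of a non-zero ideal is not zero. -/
theorem upI_ne_bot981 {𝔫 : Ideal (𝓞 K)} (h : 𝔫 ≠ ⊥) : upI (K' := K') 𝔫 ≠ ⊥ := by
  unfold upI
  intro h0
  rw [Ideal.map_eq_bot_iff_of_injective
    (FaithfulSMul.algebraMap_injective (𝓞 K) (𝓞 K'))] at h0
  exact h h0

/-- A field over a totally complex field is totally complex. -/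
theorem totCplx_up981 (h : TotCplx K) (w : InfinitePlace K') : w.IsComplex := by
  by_contra hw
  rw [InfinitePlace.not_isComplex_iff_isReal] at hw
  have h1 : (w.comap (algebraMap K K')).IsReal := hw.comap (algebraMap K K')
  exact (InfinitePlace.not_isComplex_iff_isReal.2 h1) (h _)

/-- **THE TOP OF THE FOURTH CUT**: the data exist. -/
theorem datC_of981 (hU : UpDatC981 K') (hN : NormFrameC981 K K') (hF : DownFinC981 K K')
    (hA : DownArchC981 K K') (hT : PushTelC981 K K') : DatC981 K K' := by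
  classical
  intro ℓ hcyc hl hcx Φ hΦ hconst hek B hB hram 𝔫 hlev μc hμc T₀ n n₀ m hexp
  have h𝔑 : upI (K' := K') 𝔫 ≠ ⊥ := upI_ne_bot981 hlev.level_ne
  obtain ⟨P', e', a₀', hP'ne, hP', hspan, hmem, hgood⟩ := hek (upI (K' := K') 𝔫) h𝔑 B.S'
  have ha₀ : algebraMap (𝓞 K') K' a₀' ≠ 0 := by
    intro h0
    have h0' : a₀' = 0 :=
      (map_eq_zero_iff (algebraMap (𝓞 K') K')
        (FaithfulSMul.algebraMap_injective (𝓞 K') K')).1 h0
    rw [h0'] at hspan
    have hbot : (∏ v ∈ P', v.asIdeal ^ e' v) = ⊥ := by rw [← hspan]; simp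
    rw [← Ideal.zero_eq_bot, Finset.prod_eq_zero_iff] at hbot
    obtain ⟨v, hvP, hv⟩ := hbot
    exact v.ne_bot ((pow_eq_zero_iff (Nat.pos_iff_ne_zero.1 (hP' v hvP).2.2)).1 hv)
  set α' : K'ˣ := Units.mk0 _ ha₀ with hα'
  have hfr' : T3.M.FrameM K' (upI (K' := K') 𝔫) P' e' a₀' α' :=
    ⟨h𝔑, hP'ne, fun v hv => (hP' v hv).2.1, fun v hv => (hP' v hv).2.2, hspan, hmem, rfl⟩
  obtain ⟨N, κc, A', β', φ₀', Φa, hκ, hsA', hsβ', hsat', htest', hsm', habel', hacts', htel',
    hft'⟩ := hU (totCplx_up981 hcx) μc hμc (upI (K' := K') 𝔫) P' e' a₀' α' hfr'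
  obtain ⟨P, e, a₀, α, hfr, hunder, he, hlog⟩ :=
    hN ℓ hcyc hl hcx 𝔫 P' e' a₀' α' hlev.level_ne hfr'
  -- the components upstairs at ALL finite places
  set φ₀ : Fin N → ∀ w : HeightOneSpectrum (𝓞 K'), GL (Fin 2) (w.adicCompletion K') → ℂ :=
    fun i w => if w ∈ P' then φ₀' i w
      else if ∃ v ∈ T₀, PlaceOver K K' v w then unitFn893 (n w) else unitFn893 0 with hφ₀
  have hφ₀P' : ∀ (i : Fin N), ∀ w ∈ P', φ₀ i w = φ₀' i w := fun i w hw => by
    simp only [hφ₀, if_pos hw]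
  have hnotP' : ∀ (v : HeightOneSpectrum (𝓞 K)) (w : HeightOneSpectrum (𝓞 K')), v ∈ T₀ →
      PlaceOver K K' v w → w ∉ P' := fun v w hv hvw hw =>
    (hP' w hw).2.1 (dvd_upI_of_placeOver981 hvw ((hexp.mem_T₀ v).1 hv))
  have hunit_up : ∀ (i : Fin N), ∀ v ∈ T₀, ∀ w : HeightOneSpectrum (𝓞 K'),
      PlaceOver K K' v w → φ₀ i w = unitFn893 (n w) := fun i v hv w hvw => by
    simp only [hφ₀, if_neg (hnotP' v w hv hvw)]
    rw [if_pos ⟨v, hv, hvw⟩]
  have hunit_rest : ∀ (i : Fin N) (w : HeightOneSpectrum (𝓞 K')), w ∉ P' →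
      (∃ v ∈ P, PlaceOver K K' v w) → φ₀ i w = unitFn893 0 := fun i w hw hex => by
    simp only [hφ₀, if_neg hw]
    rw [if_neg]
    rintro ⟨v₀, hv₀, hv₀w⟩
    obtain ⟨v, hv, hvw⟩ := hex
    have hvv : v = v₀ := placeOver_unique981 hvw hv₀w
    subst hvv
    exact hfr.prime v hv ((hexp.mem_T₀ v).1 hv₀)
  -- the finite places downstairs
  choose A f₀ hsA hApush hsat hunit hsph using fun i : Fin N =>
    hF ℓ hcyc hl hcx Φ B hB hram 𝔫 hlev T₀ n n₀ m hexp P' P (fun w hw => (hP' w hw).1) hunder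
      (A' i) (φ₀ i) (hsA' i) (fun w hw => by rw [hφ₀P' i w hw]; exact hsat' i w hw)
      (hunit_rest i)
  -- the infinite places downstairs
  obtain ⟨cμ, hArch⟩ := hA ℓ hcyc hl hcx μc hμc
  choose F β hsβ htest hsm habel hβ harch using fun i : Fin N =>
    hArch (B.comp 𝔫) hB.deg n m (φ₀ i) (f₀ i) (Φa i) (β' i) (hsβ' i) (htest' i) (hsm' i)
      (habel' i)
  -- the telescoping downstairs
  have htel := hT ℓ hcyc hl hcx P' P e' e α' α hunder hfr.nonempty hfr.pos he hlog cμ N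
    A' β' A β hsA' hsβ' hApush hβ htel'
  refine ⟨⟨N, P', e', a₀', α', P, e, a₀, α, κc, A', β', φ₀, Φa, A, β, f₀, F⟩, ?_⟩
  exact
    { frame_up := hfr'
      frame_dn := hfr
      out := fun w hw => (hP' w hw).1
      good := hgood
      under := hunder
      κc_ne := hκ
      symA' := hsA'
      symβ' := hsβ'
      sat_up := fun i w hw => by
        show T3.AS.IsSatakePair w (φ₀ i w) (A' i w)
        rw [hφ₀P' i w hw]
        exact hsat' i w hw
      test_up := htest'
      smooth_up := hsm'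
      abel_up := habel'
      acts_up := hacts'
      symA := hsA
      symβ := hsβ
      sat_dn := hsat
      test_dn := htest
      smooth_dn := hsm
      abel_dn := habel
      tel_up := htel'
      tel_dn := htel
      ft_ne := hft'
      unit_rest := hunit_rest
      loc := fun i => ⟨hunit i, hunit_up i, hsph i, harch i⟩ }

end Fermat.Agent.LT.T7.B981

end
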