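import Mathlib
import Fermat.Agent.LT.T7.B981.BaseTop
import Fermat.Agent.LT.T7.B981.PairATop
import Fermat.Agent.LT.T7.B981.PairBaseTop
import Fermat.Agent.LT.T7.B981.PairDatTop
import Fermat.Agent.LT.T7.B981.H302.HaarCplx
import Fermat.Agent.LT.T7.B981.H890.Lvl
import Fermat.Agent.LT.T7.B981.H368.Sys
import Fermat.Agent.LT.T7.B981.H503.StepS
import Fermat.Agent.LT.T7.B981.H34.DnGood
import Fermat.Agent.LT.T7.B981.H726.IwSupp
import Fermat.Agent.LT.T7.B981.H607.Shape

/-!
# Row LT, tower T7, node T7.L2.1.H2a.A `PairAC797` (sub-architect helper981, registry 2728):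
# INTEGRATION v1 of the cuts 2, 3, 4 with the delivered leaves

OFF-MAIN.  Complete proofs, nothing assumed.  ADDITIVE (new names only, suffix `981`).
Vendored byte-identical (the `sha256` prefixes are those of the registry):

* `H503/StepS.lean`  `aefc8dee`  helper503, registry 2815: `SS503.stepSC503` (node A.2, closed);
* `H34/DnGood.lean`  `7aa297e2`  helper34,  registry 2912: `H34.dnGoodC34`;
* `H726/IwSupp.lean` `40b338d4`  helper726, registry 2913: `H726.iwSuppC726`;
* `H607/Shape.lean`  `c2ba93dc`  helper607, registry 2915: `H607.shapeC607`;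
* `H302/HaarCplx.lean` `33ff3147` helper302, registry 2685; `H890/Lvl.lean` `29ca52c8` helper890,
  registry 2686; `H368/Sys.lean` `3e4aa3d3` helper368, registry 2687 (leaves of the first cut).

    pairAC_open981 : UpDatC981 K' → NormFrameC981 K K' → DownFinC981 K K' → DownArchC981 K K'
        → PushTelC981 K K' → UpGoodC981 K K' → DnStabC981 K K'
        → StepTC981 K K' LocA893 → StepMC981 K K' LocA893
        → Q797.PairAC797 ekMulti K K' LocA893

OPEN after v1 (registry): 2979 UpDat, 2980 NormFrame, 2981 DownFin, 2982 DownArch, 2983 PushTel,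
2911 UpGood, 2914 DnStab, 2814 StepT (cut of helper589), 2816 StepM (cut of helper445).
-/

set_option autoImplicit false

noncomputable section

namespace Fermat.Agent.LT.T7.B981

open Fermat.Agent.LT.T7

variable {K K' : Type} [Field K] [NumberField K] [Field K'] [NumberField K'] [Algebra K K']

/-- INTEGRATION v1 of the third cut (the empty word): the leaves `DnGood`, `IwSupp` (both
fields) and `Shape` are discharged. -/
theorem baseAC_open981 (hD : DatC981 K K') (hG : UpGoodC981 K K') (hS : DnStabC981 K K') :
    BaseAC981 ekMulti K K' H893.LocA893 :=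
  baseAC_of981 hD hG (H34.dnGoodC34 K K') (H726.iwSuppC726 K') (H726.iwSuppC726 K) hS
    (H607.shapeC607 K K')

/-- INTEGRATION v1 of the fourth cut: the data from their five leaves, then the empty word. -/
theorem baseAC_leaves981 (hU : UpDatC981 K') (hN : NormFrameC981 K K')
    (hF : DownFinC981 K K') (hA : DownArchC981 K K') (hT : PushTelC981 K K')
    (hG : UpGoodC981 K K') (hS : DnStabC981 K K') :
    BaseAC981 ekMulti K K' H893.LocA893 :=
  baseAC_open981 (datC_of981 hU hN hF hA hT) hG hS

/-- **INTEGRATION v1 of the FIRST PAIR** (node `PairAC797`, shape of record `LocA893`, condition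
`ekMulti`): the step of the `S_w` is discharged (helper503). -/
theorem pairAC_open981 (hU : UpDatC981 K') (hN : NormFrameC981 K K')
    (hF : DownFinC981 K K') (hA : DownArchC981 K K') (hT : PushTelC981 K K')
    (hG : UpGoodC981 K K') (hS : DnStabC981 K K')
    (hsT : StepTC981 K K' H893.LocA893) (hsM : StepMC981 K K' H893.LocA893) :
    Q797.PairAC797 ekMulti K K' H893.LocA893 :=
  pairAC_of981 (baseAC_leaves981 hU hN hF hA hT hG hS) hsT (SS503.stepSC503 K K') hsM

/-- The same with the node `DatC981` kept whole. -/
theorem pairAC_ofDat981 (hD : DatC981 K K') (hG : UpGoodC981 K K') (hS : DnStabC981 K K')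
    (hsT : StepTC981 K K' H893.LocA893) (hsM : StepMC981 K K' H893.LocA893) :
    Q797.PairAC797 ekMulti K K' H893.LocA893 :=
  pairAC_of981 (baseAC_open981 hD hG hS) hsT (SS503.stepSC503 K K') hsM

/-- INTEGRATION v1 of the FIRST cut (form v1 `BaseC`; the form of record `BaseCb` goes through
`Q797.baseCb_of797`): the leaves `HaarCplx`, `Lvl`, `Sys` are discharged. -/
theorem baseC_open981 {P : EKCond} (h1 : Pair1C981 P K K') (h2 : Pair2C981 P K K') :
    H893.BaseC P K K' :=
  baseC_of981 H302.haarCplxC302 (H890.lvlC890 K K') (H368.sysC368 K K') h1 h2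

end Fermat.Agent.LT.T7.B981

end
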